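/-
S15lib / Weil / Eval  (helper9) — Project E, block WEIL, part 1.

Values of functions at rational places, and the value `f(D) = ∏_v f(v)^{D v}` of a function on a
divisor with disjoint support.

* `RatPlaces K F`       : all places of `F / K` have degree one;
* `val v f : K`         : the value of `f` at the place `v` (`0` if `f` is not regular at `v`);
* `evalDiv f D : K`     : `f(D)`.
-/
import Mathlib
import Fermat.Prelude.Def_AlgebraicCurve_DivisorClassGroup
import Fermat.Prelude.Def_AlgebraicCurve_BaseChangeGalois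
import Fermat.Agent.ProgramR.FunctionField.AlgClosed

set_option autoImplicit false
set_option linter.unusedSectionVars false
set_option linter.style.haveILetI false

noncomputable section

namespace Fermat.Agent.S15lib.Weil

open AlgebraicCurve IsLocalRing Fermat.Agent.ProgramR

variable {K F : Type*} [Field K] [Field F] [Algebra K F]

/-- all places of `F / K` are rational -/
class RatPlaces (K F : Type*) [Field K] [Field F] [Algebra K F] : Prop where
  deg_eq_one : ∀ v : Place K F, v.deg = 1

theorem algebraMap_residueField_surjective_of_deg {v : Place K F} (h : v.deg = 1) :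
    Function.Surjective (algebraMap K v.ResidueField) := by
  have h1 : Module.finrank K v.ResidueField = 1 := h
  have : (⊥ : Subalgebra K v.ResidueField) = ⊤ := Subalgebra.bot_eq_top_of_finrank_eq_one h1
  exact Algebra.surjective_algebraMap_iff.2 this.symm

section Val

variable [RatPlaces K F] (v : Place K F)

theorem algebraMap_residueField_bijective :
    Function.Bijective (algebraMap K v.ResidueField) :=
  ⟨(algebraMap K v.ResidueField).injective,
    algebraMap_residueField_surjective_of_deg (RatPlaces.deg_eq_one v)⟩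

/-- `K ≃ κ(v)` -/
def resEquiv : K ≃ₐ[K] v.ResidueField :=
  AlgEquiv.ofBijective (Algebra.ofId K v.ResidueField) (algebraMap_residueField_bijective v)

/-- the value at `v`, as a `K`-algebra map `O_v → K` -/
def resK : v.toValuationSubring →ₐ[K] K :=
  ((resEquiv v).symm : v.ResidueField →ₐ[K] K).comp
    (IsScalarTower.toAlgHom K v.toValuationSubring v.ResidueField)

theorem algebraMap_resK (a : v.toValuationSubring) :
    algebraMap K v.ResidueField (resK v a) = residue v.toValuationSubring a :=
  (resEquiv v).apply_symm_apply (residue v.toValuationSubring a)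

theorem resK_eq_zero_iff (a : v.toValuationSubring) :
    resK v a = 0 ↔ a ∈ maximalIdeal v.toValuationSubring := by
  rw [← residue_eq_zero_iff, ← algebraMap_resK v a]
  constructor
  · intro h; rw [h, map_zero]
  · intro h
    exact (algebraMap K v.ResidueField).injective (by rw [h, map_zero])

theorem resK_eq_iff (a : v.toValuationSubring) (c : K) :
    resK v a = c ↔ a - algebraMap K v.toValuationSubring c ∈ maximalIdeal v.toValuationSubring := by
  rw [← resK_eq_zero_iff, map_sub, AlgHom.commutes, sub_eq_zero]
  rfl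

/-- the value of `f` at `v` (`0` if `f` has a pole at `v`) -/
def val (f : F) : K :=
  letI := Classical.propDecidable
  if hf : f ∈ v.toValuationSubring then resK v ⟨f, hf⟩ else 0

theorem val_of_mem {f : F} (hf : f ∈ v.toValuationSubring) : val v f = resK v ⟨f, hf⟩ := by
  classical
  rw [val, dif_pos hf]

theorem val_of_not_mem {f : F} (hf : f ∉ v.toValuationSubring) : val v f = 0 := by
  classical
  rw [val, dif_neg hf]

theorem val_coe (a : v.toValuationSubring) : val v (a : F) = resK v a :=
  val_of_mem v a.2

@[simp] theorem val_algebraMap (c : K) : val v (algebraMap K F c) = c := by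
  have h : algebraMap K F c ∈ v.toValuationSubring := v.algebraMap_mem' c
  rw [val_of_mem v h]
  have : (⟨algebraMap K F c, h⟩ : v.toValuationSubring) = algebraMap K v.toValuationSubring c :=
    rfl
  rw [this, AlgHom.commutes]
  rfl

@[simp] theorem val_zero : val v (0 : F) = 0 := by
  rw [← map_zero (algebraMap K F), val_algebraMap]

@[simp] theorem val_one : val v (1 : F) = 1 := by
  rw [← map_one (algebraMap K F), val_algebraMap]

theorem val_mul {f g : F} (hf : f ∈ v.toValuationSubring) (hg : g ∈ v.toValuationSubring) :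
    val v (f * g) = val v f * val v g := by
  rw [val_of_mem v hf, val_of_mem v hg, val_of_mem v (mul_mem hf hg), ← map_mul]
  rfl

theorem val_add {f g : F} (hf : f ∈ v.toValuationSubring) (hg : g ∈ v.toValuationSubring) :
    val v (f + g) = val v f + val v g := by
  rw [val_of_mem v hf, val_of_mem v hg, val_of_mem v (add_mem hf hg), ← map_add]
  rfl

theorem val_sub {f g : F} (hf : f ∈ v.toValuationSubring) (hg : g ∈ v.toValuationSubring) :
    val v (f - g) = val v f - val v g := by
  rw [val_of_mem v hf, val_of_mem v hg, val_of_mem v (sub_mem hf hg), ← map_sub]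
  rfl

theorem val_pow {f : F} (hf : f ∈ v.toValuationSubring) (n : ℕ) :
    val v (f ^ n) = val v f ^ n := by
  rw [val_of_mem v hf, val_of_mem v (pow_mem hf n), ← map_pow]
  rfl

theorem mem_of_ord_eq_zero {f : F} (h : v.ord f = 0) : f ∈ v.toValuationSubring :=
  FF.mem_of_ord_nonneg v h.ge

theorem val_eq_zero_iff {f : F} (hf : f ∈ v.toValuationSubring) :
    val v f = 0 ↔ f = 0 ∨ 0 < v.ord f := by
  rw [val_of_mem v hf, resK_eq_zero_iff, FF.mem_maximalIdeal_iff]
  constructor
  · rintro (h | h)
    · left; exact congrArg Subtype.val h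
    · right; exact h
  · rintro (h | h)
    · left; exact Subtype.ext h
    · right; exact h

theorem val_ne_zero {f : F} (hf : f ≠ 0) (h : v.ord f = 0) : val v f ≠ 0 := by
  rw [Ne, val_eq_zero_iff v (mem_of_ord_eq_zero v h)]
  rintro (h0 | h0)
  · exact hf h0
  · omega

theorem val_eq_zero_of_ord_pos {f : F} (h : 0 < v.ord f) : val v f = 0 :=
  (val_eq_zero_iff v (FF.mem_of_ord_nonneg v h.le)).2 (Or.inr h)

theorem val_eq_zero_of_ord_neg {f : F} (h : v.ord f < 0) : val v f = 0 := by
  apply val_of_not_mem
  intro hmem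
  have := FF.ord_nonneg_of_mem v hmem
  omega

/-- characterisation of the value: `f(v) = c` iff `f - c` vanishes at `v` -/
theorem val_eq_iff {f : F} (hf : f ∈ v.toValuationSubring) (c : K) :
    val v f = c ↔ f = algebraMap K F c ∨ 0 < v.ord (f - algebraMap K F c) := by
  rw [val_of_mem v hf, resK_eq_iff, FF.mem_maximalIdeal_iff]
  constructor
  · rintro (h | h)
    · left
      have := congrArg Subtype.val h
      exact sub_eq_zero.1 this
    · right; exact h
  · rintro (h | h)
    · left; exact Subtype.ext (sub_eq_zero.2 h)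
    · right; exact h

theorem val_inv {f : F} (hf : f ≠ 0) (h : v.ord f = 0) : val v f⁻¹ = (val v f)⁻¹ := by
  have h' : v.ord f⁻¹ = 0 := by rw [v.ord_inv, h, neg_zero]
  have hm := val_mul v (mem_of_ord_eq_zero v h) (mem_of_ord_eq_zero v h')
  rw [mul_inv_cancel₀ hf, val_one] at hm
  exact eq_inv_of_mul_eq_one_right hm.symm

theorem val_div {f g : F} (hf : f ∈ v.toValuationSubring) (hg : g ≠ 0) (h : v.ord g = 0) :
    val v (f / g) = val v f / val v g := by
  have h' : v.ord g⁻¹ = 0 := by rw [v.ord_inv, h, neg_zero]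
  rw [div_eq_mul_inv, val_mul v hf (mem_of_ord_eq_zero v h'), val_inv v hg h, div_eq_mul_inv]

theorem val_zpow {f : F} (hf : f ≠ 0) (h : v.ord f = 0) (n : ℤ) :
    val v (f ^ n) = val v f ^ n := by
  cases n with
  | ofNat n => simpa using val_pow v (mem_of_ord_eq_zero v h) n
  | negSucc n =>
    rw [zpow_negSucc, zpow_negSucc]
    have h' : v.ord (f ^ (n + 1)) = 0 := by
      rw [← zpow_natCast, v.ord_zpow, h, mul_zero]
    rw [val_inv v (pow_ne_zero _ hf) h', val_pow v (mem_of_ord_eq_zero v h)]

end Val

/-! ### the value of a function on a divisor -/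

/-- `f` has neither zero nor pole on the support of `D` -/
def Disj (f : F) (D : Divisor K F) : Prop := ∀ v : Place K F, D v ≠ 0 → v.ord f = 0

theorem Disj.zero_right (f : F) : Disj f (0 : Divisor K F) := fun _ h => absurd rfl h

theorem Disj.add_right {f : F} {D E : Divisor K F} (hD : Disj f D) (hE : Disj f E) :
    Disj f (D + E) := by
  intro v hv
  by_cases h : D v = 0
  · by_cases h' : E v = 0
    · exact absurd (by rw [Finsupp.add_apply, h, h', add_zero]) hv
    · exact hE v h'
  · exact hD v h

theorem Disj.neg_right {f : F} {D : Divisor K F} (hD : Disj f D) : Disj f (-D) := by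
  intro v hv
  exact hD v (by simpa using hv)

theorem Disj.sub_right {f : F} {D E : Divisor K F} (hD : Disj f D) (hE : Disj f E) :
    Disj f (D - E) := by
  rw [sub_eq_add_neg]
  exact hD.add_right hE.neg_right

theorem Disj.zsmul_right {f : F} {D : Divisor K F} (hD : Disj f D) (n : ℤ) : Disj f (n • D) := by
  intro v hv
  apply hD v
  intro h
  exact hv (by rw [Finsupp.smul_apply, h, smul_zero])

theorem Disj.nsmul_right {f : F} {D : Divisor K F} (hD : Disj f D) (n : ℕ) : Disj f (n • D) := by
  intro v hv
  apply hD v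
  intro h
  exact hv (by rw [Finsupp.smul_apply, h, smul_zero])

theorem Disj.of_zsmul {f : F} {D : Divisor K F} {n : ℤ} (hn : n ≠ 0) (hD : Disj f (n • D)) :
    Disj f D := by
  intro v hv
  apply hD v
  rw [Finsupp.smul_apply, smul_eq_mul]
  exact mul_ne_zero hn hv

theorem Disj.single {f : F} {v : Place K F} (h : v.ord f = 0) (n : ℤ) :
    Disj f (Finsupp.single v n) := by
  intro w hw
  by_cases hwv : w = v
  · rw [hwv]; exact h
  · exact absurd (Finsupp.single_eq_of_ne' (Ne.symm hwv)) hw

theorem Disj.mul_left {f g : F} {D : Divisor K F} (hf : f ≠ 0) (hg : g ≠ 0) (hfD : Disj f D)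
    (hgD : Disj g D) : Disj (f * g) D := by
  intro v hv
  rw [v.ord_mul hf hg, hfD v hv, hgD v hv, add_zero]

theorem Disj.inv_left {f : F} {D : Divisor K F} (hfD : Disj f D) : Disj f⁻¹ D := by
  intro v hv
  rw [v.ord_inv, hfD v hv, neg_zero]

theorem Disj.div_left {f g : F} {D : Divisor K F} (hf : f ≠ 0) (hg : g ≠ 0) (hfD : Disj f D)
    (hgD : Disj g D) : Disj (f / g) D := by
  rw [div_eq_mul_inv]
  exact Disj.mul_left hf (inv_ne_zero hg) hfD hgD.inv_left

theorem Disj.pow_left {f : F} {D : Divisor K F} (hfD : Disj f D) (n : ℕ) : Disj (f ^ n) D := by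
  intro v hv
  rw [← zpow_natCast, v.ord_zpow, hfD v hv, mul_zero]

theorem Disj.zpow_left {f : F} {D : Divisor K F} (hfD : Disj f D) (n : ℤ) : Disj (f ^ n) D := by
  intro v hv
  rw [v.ord_zpow, hfD v hv, mul_zero]

theorem Disj.algebraMap_left (c : K) (D : Divisor K F) : Disj (algebraMap K F c) D := by
  intro v _
  exact FF.ord_eq_zero_of_isAlgebraic v (isAlgebraic_algebraMap c)

section EvalDiv

variable [RatPlaces K F]

/-- the value `f(D) = ∏_v f(v)^{D v}` -/
def evalDiv (f : F) (D : Divisor K F) : K := D.prod fun v n => val v f ^ n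

@[simp] theorem evalDiv_zero_right (f : F) : evalDiv f (0 : Divisor K F) = 1 :=
  Finsupp.prod_zero_index

theorem evalDiv_single (f : F) (v : Place K F) (n : ℤ) :
    evalDiv f (Finsupp.single v n) = val v f ^ n := by
  rw [evalDiv, Finsupp.prod_single_index]
  exact zpow_zero _

theorem evalDiv_add_right {f : F} (hf : f ≠ 0) {D E : Divisor K F} (hD : Disj f D)
    (hE : Disj f E) : evalDiv f (D + E) = evalDiv f D * evalDiv f E := by
  classical
  rw [evalDiv, evalDiv, evalDiv]
  refine Finsupp.prod_add_index (fun v _ => zpow_zero _) ?_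
  intro v hv m n
  have hv0 : v.ord f = 0 := by
    rcases Finset.mem_union.1 hv with h | h
    · exact hD v (Finsupp.mem_support_iff.1 h)
    · exact hE v (Finsupp.mem_support_iff.1 h)
  exact zpow_add₀ (val_ne_zero v hf hv0) m n

theorem evalDiv_neg_right (f : F) (D : Divisor K F) : evalDiv f (-D) = (evalDiv f D)⁻¹ := by
  rw [evalDiv, evalDiv, Finsupp.prod_neg_index (fun v => zpow_zero _), Finsupp.prod,
    Finsupp.prod, ← Finset.prod_inv_distrib]
  exact Finset.prod_congr rfl fun v _ => zpow_neg _ _

theorem evalDiv_sub_right {f : F} (hf : f ≠ 0) {D E : Divisor K F} (hD : Disj f D)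
    (hE : Disj f E) : evalDiv f (D - E) = evalDiv f D / evalDiv f E := by
  rw [sub_eq_add_neg, evalDiv_add_right hf hD hE.neg_right, evalDiv_neg_right, div_eq_mul_inv]

theorem evalDiv_zsmul_right (f : F) (D : Divisor K F) (n : ℤ) :
    evalDiv f (n • D) = evalDiv f D ^ n := by
  rw [evalDiv, evalDiv, Finsupp.prod_of_support_subset (n • D) Finsupp.support_smul _
    (fun v _ => zpow_zero _), Finsupp.prod, ← Finset.prod_zpow]
  refine Finset.prod_congr rfl fun v _ => ?_
  rw [Finsupp.smul_apply, smul_eq_mul, mul_comm, zpow_mul]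

theorem evalDiv_nsmul_right (f : F) (D : Divisor K F) (n : ℕ) :
    evalDiv f (n • D) = evalDiv f D ^ n := by
  rw [← natCast_zsmul, evalDiv_zsmul_right, zpow_natCast]

theorem evalDiv_ne_zero {f : F} (hf : f ≠ 0) {D : Divisor K F} (hD : Disj f D) :
    evalDiv f D ≠ 0 := by
  rw [evalDiv, Finsupp.prod, Finset.prod_ne_zero_iff]
  intro v hv
  exact zpow_ne_zero _ (val_ne_zero v hf (hD v (Finsupp.mem_support_iff.1 hv)))

theorem evalDiv_mul_left {f g : F} {D : Divisor K F} (hfD : Disj f D)
    (hgD : Disj g D) : evalDiv (f * g) D = evalDiv f D * evalDiv g D := by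
  rw [evalDiv, evalDiv, evalDiv, Finsupp.prod, Finsupp.prod, Finsupp.prod,
    ← Finset.prod_mul_distrib]
  refine Finset.prod_congr rfl fun v hv => ?_
  have hv' := Finsupp.mem_support_iff.1 hv
  rw [val_mul v (mem_of_ord_eq_zero v (hfD v hv')) (mem_of_ord_eq_zero v (hgD v hv')), mul_zpow]

theorem evalDiv_inv_left {f : F} (hf : f ≠ 0) {D : Divisor K F} (hfD : Disj f D) :
    evalDiv f⁻¹ D = (evalDiv f D)⁻¹ := by
  rw [evalDiv, evalDiv, Finsupp.prod, Finsupp.prod, ← Finset.prod_inv_distrib]
  refine Finset.prod_congr rfl fun v hv => ?_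
  rw [val_inv v hf (hfD v (Finsupp.mem_support_iff.1 hv)), inv_zpow]

theorem evalDiv_div_left {f g : F} (hg : g ≠ 0) {D : Divisor K F} (hfD : Disj f D)
    (hgD : Disj g D) : evalDiv (f / g) D = evalDiv f D / evalDiv g D := by
  rw [div_eq_mul_inv, evalDiv_mul_left hfD hgD.inv_left,
    evalDiv_inv_left hg hgD, div_eq_mul_inv]

@[simp] theorem evalDiv_one_left (D : Divisor K F) : evalDiv (1 : F) D = 1 := by
  rw [evalDiv, Finsupp.prod]
  exact Finset.prod_eq_one fun v _ => by rw [val_one, one_zpow]

theorem evalDiv_pow_left {f : F} {D : Divisor K F} (hfD : Disj f D) (n : ℕ) :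
    evalDiv (f ^ n) D = evalDiv f D ^ n := by
  rw [evalDiv, evalDiv, Finsupp.prod, Finsupp.prod, ← Finset.prod_pow]
  refine Finset.prod_congr rfl fun v hv => ?_
  rw [val_pow v (mem_of_ord_eq_zero v (hfD v (Finsupp.mem_support_iff.1 hv))), ← zpow_natCast,
    ← zpow_natCast, ← zpow_mul, ← zpow_mul, mul_comm]

theorem degree_eq_sum (D : Divisor K F) : Divisor.degree D = D.sum fun _ n => n := by
  rw [Divisor.degree, Finsupp.liftAddHom_apply]
  refine Finsupp.sum_congr fun v _ => ?_
  rw [AddMonoidHom.mulRight_apply, RatPlaces.deg_eq_one v, Nat.cast_one, mul_one]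

theorem zpow_finset_sum {c : K} (hc : c ≠ 0) {ι : Type*} (s : Finset ι) (e : ι → ℤ) :
    c ^ (∑ i ∈ s, e i) = ∏ i ∈ s, c ^ e i := by
  classical
  induction s using Finset.induction_on with
  | empty => simp
  | insert a s ha ih => rw [Finset.sum_insert ha, Finset.prod_insert ha, zpow_add₀ hc, ih]

theorem evalDiv_algebraMap {c : K} (hc : c ≠ 0) (D : Divisor K F) :
    evalDiv (algebraMap K F c) D = c ^ Divisor.degree D := by
  rw [evalDiv, degree_eq_sum, Finsupp.prod, Finsupp.sum, zpow_finset_sum hc]
  exact Finset.prod_congr rfl fun v _ => by rw [val_algebraMap]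

theorem evalDiv_algebraMap_of_degree_eq_zero {c : K} (hc : c ≠ 0) {D : Divisor K F}
    (hD : Divisor.degree D = 0) : evalDiv (algebraMap K F c) D = 1 := by
  rw [evalDiv_algebraMap hc, hD, zpow_zero]

end EvalDiv

/-! ### equivariance under semilinear automorphisms -/

section Equivariant

variable [RatPlaces K F] (g : SemilinearAut K F)

theorem smul_mem_smul_iff (v : Place K F) (f : F) :
    g • f ∈ (g • v).toValuationSubring ↔ f ∈ v.toValuationSubring := by
  rw [FF.mem_iff_ord_nonneg, FF.mem_iff_ord_nonneg, SemilinearAut.ord_smul]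

theorem val_smul (v : Place K F) (f : F) :
    val (g • v) (g • f) = SemilinearAut.baseAut g (val v f) := by
  by_cases hf : f ∈ v.toValuationSubring
  · have hgf : g • f ∈ (g • v).toValuationSubring := (smul_mem_smul_iff g v f).2 hf
    rw [val_eq_iff _ hgf]
    rcases (val_eq_iff v hf (val v f)).1 rfl with h | h
    · left
      conv_lhs => rw [h]
      exact SemilinearAut.smul_algebraMap g _
    · right
      have h2 : g • (f - algebraMap K F (val v f)) =
          g • f - algebraMap K F (SemilinearAut.baseAut g (val v f)) := by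
        rw [smul_sub, SemilinearAut.smul_algebraMap]
      rw [← h2, SemilinearAut.ord_smul]
      exact h
  · have hgf : g • f ∉ (g • v).toValuationSubring := fun h => hf ((smul_mem_smul_iff g v f).1 h)
    rw [val_of_not_mem v hf, val_of_not_mem _ hgf, map_zero]

theorem disj_smul {f : F} {D : Divisor K F} (h : Disj f D) : Disj (g • f) (g • D) := by
  intro w hw
  rw [SemilinearAut.divisor_smul_apply] at hw
  have := h _ hw
  rw [← SemilinearAut.ord_smul g, smul_inv_smul] at this
  exact this

theorem evalDiv_smul (f : F) (D : Divisor K F) :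
    evalDiv (g • f) (g • D) = SemilinearAut.baseAut g (evalDiv f D) := by
  rw [evalDiv, SemilinearAut.divisor_smul_def,
    Finsupp.prod_mapDomain_index_inj (MulAction.injective g), evalDiv, map_finsuppProd]
  refine Finsupp.prod_congr fun v _ => ?_
  rw [val_smul, map_zpow₀]

end Equivariant

end Fermat.Agent.S15lib.Weil
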