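/-
S15lib / Weil / Pairing  (helper9)

**The Weil pairing on `Pic⁰(F)[m]`**, by Weil's formula `e_m(x, y) = f_x(D_y) / f_y(D_x)` for
representatives `D_x`, `D_y` with disjoint supports, `div f_x = m D_x`, `div f_y = m D_y`.

The construction is abstract: it uses only the axioms of `WeilCurve K F` (all places rational,
principal divisors, Weil reciprocity, prescribed orders at finitely many places, functions
without zeros and poles are constant).  The instance for function fields in one variable over an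
algebraically closed field of characteristic zero is in `S15lib/Weil/Instance.lean`.

Main results: `weilPair_eq` (the formula, for any disjoint representatives), `weilPair_add_left`,
`weilPair_add_right`, `weilPair_swap`, `weilPair_pow`, `weilPair_smul` (equivariance under
semilinear automorphisms).
-/
import Mathlib
import Fermat.Agent.S15lib.Weil.Eval
import Fermat.Agent.S18lib.Setup.DivLemmas

set_option autoImplicit false
set_option linter.unusedSectionVars false
set_option linter.style.haveILetI false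

noncomputable section

namespace Fermat.Agent.S15lib.Weil

open AlgebraicCurve Fermat.Agent.S18lib

/-- the axioms needed for the Weil pairing -/
class WeilCurve (K F : Type*) [Field K] [Field F] [Algebra K F] : Prop
    extends RatPlaces K F, HasPrincipalDivisors K F where
  /-- Weil reciprocity -/
  reciprocity : ∀ {f g : F}, f ≠ 0 → g ≠ 0 → (∀ v : Place K F, v.ord f ≠ 0 → v.ord g = 0) →
    evalDiv f (divOf (K := K) g) = evalDiv g (divOf (K := K) f)
  /-- prescribed orders at finitely many places -/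
  moving : ∀ (S : Finset (Place K F)) (n : Place K F → ℤ),
    ∃ h : F, h ≠ 0 ∧ ∀ v ∈ S, v.ord h = n v
  /-- functions without zeros and poles are constant -/
  const_of_ord_eq_zero : ∀ u : F, u ≠ 0 → (∀ v : Place K F, v.ord u = 0) →
    ∃ c : K, u = algebraMap K F c

variable {K F : Type*} [Field K] [Field F] [Algebra K F]

section Basic

variable [HasPrincipalDivisors K F]

theorem divOf_eq_iff {f : F} (_hf : f ≠ 0) {D : Divisor K F} :
    divOf (K := K) f = D ↔ ∀ v : Place K F, D v = v.ord f := by
  constructor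
  · rintro rfl v
    rw [divOf_apply']
  · intro h
    ext v
    rw [divOf_apply', h]

theorem divOf_mem_degZero (f : F) : divOf (K := K) f ∈ Divisor.degZero (K := K) (F := F) :=
  degree_divOf f

theorem mk_add_divOf (D : Divisor K F) (hD : D ∈ Divisor.degZero (K := K) (F := F)) {h : F}
    (hh : h ≠ 0) (hD' : D + divOf (K := K) h ∈ Divisor.degZero (K := K) (F := F)) :
    Pic0.mk ⟨D + divOf (K := K) h, hD'⟩ = Pic0.mk ⟨D, hD⟩ := by
  rw [Pic0.mk, Pic0.mk, QuotientAddGroup.eq, AddSubgroup.mem_addSubgroupOf]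
  have : ((-(⟨D + divOf (K := K) h, hD'⟩ : Divisor.degZero (K := K) (F := F)) + ⟨D, hD⟩ :
      Divisor.degZero (K := K) (F := F)) : Divisor K F) = -divOf (K := K) h := by
    push_cast
    abel
  rw [this]
  exact neg_mem (divOf_mem_principal hh)

theorem exists_divOf_eq_sub_of_mk_eq {D D' : Divisor K F}
    (hD : D ∈ Divisor.degZero (K := K) (F := F)) (hD' : D' ∈ Divisor.degZero (K := K) (F := F))
    (h : Pic0.mk ⟨D, hD⟩ = Pic0.mk ⟨D', hD'⟩) :
    ∃ u : F, u ≠ 0 ∧ divOf (K := K) u = D' - D := by
  rw [Pic0.mk, Pic0.mk, QuotientAddGroup.eq, AddSubgroup.mem_addSubgroupOf] at h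
  obtain ⟨u, hu, hdiv⟩ := mem_principal_iff.1 h
  refine ⟨u, hu, ?_⟩
  rw [← hdiv]
  push_cast
  abel

end Basic

/-! ### representatives of torsion classes -/

/-- a representative of an `m`-torsion class: a divisor `D` of degree zero in the class, and a
function `f` with `div f = m D` -/
structure Rep [HasPrincipalDivisors K F] (m : ℕ) (x : Pic0 K F) where
  /-- the divisor -/
  D : Divisor K F
  /-- it has degree zero -/
  deg : D ∈ Divisor.degZero (K := K) (F := F)
  /-- the function -/
  f : F
  /-- it is not zero -/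
  f_ne : f ≠ 0
  /-- its divisor is `m D` -/
  div_eq : divOf (K := K) f = m • D
  /-- the class of `D` is `x` -/
  cls : Pic0.mk ⟨D, deg⟩ = x

namespace Rep

section

variable [HasPrincipalDivisors K F] {m : ℕ} {x y : Pic0 K F}

theorem ord_f (a : Rep m x) (v : Place K F) : v.ord a.f = m * a.D v := by
  rw [← divOf_apply' (K := K), a.div_eq, Finsupp.smul_apply, nsmul_eq_mul]

theorem ord_f_eq_zero (a : Rep m x) {v : Place K F} (hv : a.D v = 0) : v.ord a.f = 0 := by
  rw [a.ord_f, hv, mul_zero]

/-- representatives exist for torsion classes -/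
theorem nonempty (hx : m • x = 0) : Nonempty (Rep m x) := by
  obtain ⟨⟨D, hD⟩, rfl⟩ := Pic0.mk_surjective x
  have h0 : Pic0.mk (m • (⟨D, hD⟩ : Divisor.degZero (K := K) (F := F))) = 0 := hx
  rw [Pic0.mk, QuotientAddGroup.eq_zero_iff, AddSubgroup.mem_addSubgroupOf] at h0
  obtain ⟨f, hf, hdiv⟩ := mem_principal_iff.1 h0
  refine ⟨⟨D, hD, f, hf, ?_, rfl⟩⟩
  rw [← hdiv]
  push_cast
  rfl

/-- the torsion property of a class with a representative -/
theorem nsmul_eq_zero (a : Rep m x) : m • x = 0 := by
  rw [← a.cls]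
  show Pic0.mk (m • (⟨a.D, a.deg⟩ : Divisor.degZero (K := K) (F := F))) = 0
  rw [Pic0.mk, QuotientAddGroup.eq_zero_iff, AddSubgroup.mem_addSubgroupOf]
  have : ((m • (⟨a.D, a.deg⟩ : Divisor.degZero (K := K) (F := F)) :
      Divisor.degZero (K := K) (F := F)) : Divisor K F) = m • a.D := by
    push_cast
    rfl
  rw [this, ← a.div_eq]
  exact divOf_mem_principal a.f_ne

/-- move a representative by a principal divisor -/
def move (a : Rep m x) (h : F) (hh : h ≠ 0) : Rep m x where
  D := a.D + divOf (K := K) h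
  deg := add_mem a.deg (divOf_mem_degZero h)
  f := a.f * h ^ m
  f_ne := mul_ne_zero a.f_ne (pow_ne_zero _ hh)
  div_eq := by
    rw [divOf_mul a.f_ne (pow_ne_zero _ hh), divOf_pow, a.div_eq, smul_add]
  cls := by
    rw [mk_add_divOf a.D a.deg hh, a.cls]

/-- the sum of two representatives -/
def add (a : Rep m x) (b : Rep m y) : Rep m (x + y) where
  D := a.D + b.D
  deg := add_mem a.deg b.deg
  f := a.f * b.f
  f_ne := mul_ne_zero a.f_ne b.f_ne
  div_eq := by
    rw [divOf_mul a.f_ne b.f_ne, a.div_eq, b.div_eq, smul_add]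
  cls := (show Pic0.mk ⟨a.D + b.D, add_mem a.deg b.deg⟩ =
      Pic0.mk ⟨a.D, a.deg⟩ + Pic0.mk ⟨b.D, b.deg⟩ from rfl).trans
    (congrArg₂ (· + ·) a.cls b.cls)

/-- the supports of two representatives are disjoint -/
def Disjoint (a : Rep m x) (b : Rep m y) : Prop := ∀ v : Place K F, a.D v ≠ 0 → b.D v = 0

theorem Disjoint.symm {a : Rep m x} {b : Rep m y} (h : a.Disjoint b) : b.Disjoint a := by
  intro v hv
  by_contra hne
  exact hv (h v hne)

theorem Disjoint.disj_left {a : Rep m x} {b : Rep m y} (h : a.Disjoint b) : Disj a.f b.D :=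
  fun v hv => a.ord_f_eq_zero (h.symm v hv)

theorem Disjoint.disj_right {a : Rep m x} {b : Rep m y} (h : a.Disjoint b) : Disj b.f a.D :=
  h.symm.disj_left

theorem Disjoint.add_left {z : Pic0 K F} {a : Rep m x} {b : Rep m y} {c : Rep m z}
    (h₁ : a.Disjoint c) (h₂ : b.Disjoint c) : (a.add b).Disjoint c := by
  intro v hv
  by_contra hne
  apply hv
  have h1 : a.D v = 0 := h₁.symm v hne
  have h2 : b.D v = 0 := h₂.symm v hne
  show (a.D + b.D) v = 0
  rw [Finsupp.add_apply, h1, h2, add_zero]

end

end Rep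

/-! ### the value of the pairing on representatives -/

section PairVal

variable [WeilCurve K F] {m : ℕ} {x y : Pic0 K F}

/-- Weil's formula -/
def pairVal (a : Rep m x) (b : Rep m y) : K := evalDiv a.f b.D / evalDiv b.f a.D

theorem pairVal_swap (a : Rep m x) (b : Rep m y) : pairVal b a = (pairVal a b)⁻¹ := by
  rw [pairVal, pairVal, inv_div]

theorem pairVal_ne_zero {a : Rep m x} {b : Rep m y} (h : a.Disjoint b) : pairVal a b ≠ 0 :=
  div_ne_zero (evalDiv_ne_zero a.f_ne h.disj_left) (evalDiv_ne_zero b.f_ne h.disj_right)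

/-- the value does not depend on the first representative -/
theorem pairVal_eq_of_left {a a' : Rep m x} {b : Rep m y} (h : a.Disjoint b)
    (h' : a'.Disjoint b) : pairVal a b = pairVal a' b := by
  obtain ⟨u, hu, hdiv⟩ := exists_divOf_eq_sub_of_mk_eq a.deg a'.deg (a.cls.trans a'.cls.symm)
  have hordu : ∀ v : Place K F, v.ord u = a'.D v - a.D v := by
    intro v
    rw [← divOf_apply' (K := K), hdiv, Finsupp.sub_apply]
  -- `a'.f = c * a.f * u ^ m`
  have hw0 : a'.f / (a.f * u ^ m) ≠ 0 :=
    div_ne_zero a'.f_ne (mul_ne_zero a.f_ne (pow_ne_zero _ hu))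
  obtain ⟨c, hc⟩ := WeilCurve.const_of_ord_eq_zero (K := K) _ hw0 (fun v => by
    rw [div_eq_mul_inv, Place.ord_mul _ a'.f_ne (inv_ne_zero (mul_ne_zero a.f_ne
      (pow_ne_zero _ hu))), Place.ord_inv, Place.ord_mul _ a.f_ne (pow_ne_zero _ hu),
      ← zpow_natCast, Place.ord_zpow, a'.ord_f, a.ord_f, hordu]
    ring)
  have hc0 : c ≠ 0 := by
    rintro rfl
    rw [map_zero] at hc
    exact hw0 hc
  have hf' : a'.f = algebraMap K F c * (a.f * u ^ m) := by
    rw [← hc, div_mul_cancel₀ _ (mul_ne_zero a.f_ne (pow_ne_zero _ hu))]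
  -- disjointness
  have huE : Disj u b.D := by
    intro v hv
    rw [hordu, h.symm v hv, h'.symm v hv, sub_zero]
  have hgu : ∀ v : Place K F, v.ord u ≠ 0 → v.ord b.f = 0 := by
    intro v hv
    apply b.ord_f_eq_zero
    by_contra hne
    exact hv (huE v hne)
  have hgdiv : Disj b.f (divOf (K := K) u) := by
    intro v hv
    rw [divOf_apply'] at hv
    exact hgu v hv
  -- reciprocity
  have hrec := WeilCurve.reciprocity (K := K) hu b.f_ne hgu
  have hD' : a'.D = a.D + divOf (K := K) u := by rw [hdiv]; abel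
  have hne1 := evalDiv_ne_zero b.f_ne hgdiv
  have hne2 := evalDiv_ne_zero b.f_ne h.disj_right
  rw [pairVal, pairVal, hf', hD',
    evalDiv_mul_left (Disj.algebraMap_left c _) (h.disj_left.mul_left a.f_ne (pow_ne_zero _ hu)
      (huE.pow_left m)),
    evalDiv_algebraMap_of_degree_eq_zero hc0 (Divisor.mem_degZero.1 b.deg), one_mul,
    evalDiv_mul_left h.disj_left (huE.pow_left m), evalDiv_pow_left huE,
    ← evalDiv_nsmul_right, ← b.div_eq, hrec,
    evalDiv_add_right b.f_ne h.disj_right hgdiv]
  field_simp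

/-- the value does not depend on the second representative -/
theorem pairVal_eq_of_right {a : Rep m x} {b b' : Rep m y} (h : a.Disjoint b)
    (h' : a.Disjoint b') : pairVal a b = pairVal a b' := by
  have := pairVal_eq_of_left h.symm h'.symm
  rw [pairVal_swap a b, pairVal_swap a b'] at this
  exact inv_injective this

/-- a representative can be moved away from any finite set of places -/
theorem exists_rep_avoiding (a : Rep m x) (S : Finset (Place K F)) :
    ∃ a' : Rep m x, ∀ v ∈ S, a'.D v = 0 := by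
  obtain ⟨h, hh, hord⟩ := WeilCurve.moving (K := K) S fun v => -a.D v
  refine ⟨a.move h hh, fun v hv => ?_⟩
  show (a.D + divOf (K := K) h) v = 0
  rw [Finsupp.add_apply, divOf_apply', hord v hv, add_neg_cancel]

theorem exists_rep_disjoint (hx : m • x = 0) (b : Rep m y) :
    ∃ a : Rep m x, a.Disjoint b := by
  obtain ⟨a₀⟩ := Rep.nonempty (K := K) (F := F) hx
  obtain ⟨a, ha⟩ := exists_rep_avoiding a₀ b.D.support
  refine ⟨a, Rep.Disjoint.symm fun v hv => ?_⟩
  exact ha v (Finsupp.mem_support_iff.2 hv)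

theorem exists_rep_disjoint₂ {z : Pic0 K F} (hx : m • x = 0) (b : Rep m y) (c : Rep m z) :
    ∃ a : Rep m x, a.Disjoint b ∧ a.Disjoint c := by
  classical
  obtain ⟨a₀⟩ := Rep.nonempty (K := K) (F := F) hx
  obtain ⟨a, ha⟩ := exists_rep_avoiding a₀ (b.D.support ∪ c.D.support)
  refine ⟨a, Rep.Disjoint.symm fun v hv => ?_, Rep.Disjoint.symm fun v hv => ?_⟩
  · exact ha v (Finset.mem_union_left _ (Finsupp.mem_support_iff.2 hv))
  · exact ha v (Finset.mem_union_right _ (Finsupp.mem_support_iff.2 hv))

/-- the value is independent of the pair of disjoint representatives -/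
theorem pairVal_eq_of_disjoint {a a' : Rep m x} {b b' : Rep m y} (h : a.Disjoint b)
    (h' : a'.Disjoint b') : pairVal a b = pairVal a' b' := by
  obtain ⟨a'', h1, h2⟩ := exists_rep_disjoint₂ a.nsmul_eq_zero b b'
  rw [pairVal_eq_of_left h h1, pairVal_eq_of_right h1 h2, pairVal_eq_of_left h2 h']

end PairVal

/-! ### the pairing -/

section WeilPair

variable [WeilCurve K F]

open Classical in
/-- **the Weil pairing** on `m`-torsion classes (junk value `1` outside the torsion) -/
def weilPair (m : ℕ) (x y : Pic0 K F) : K :=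
  if h : ∃ (a : Rep m x) (b : Rep m y), a.Disjoint b then
    pairVal h.choose h.choose_spec.choose else 1

variable {m : ℕ} {x y : Pic0 K F}

/-- **Weil's formula** `e_m(x, y) = f_x(D_y) / f_y(D_x)`, for any disjoint representatives -/
theorem weilPair_eq (a : Rep m x) (b : Rep m y) (h : a.Disjoint b) :
    weilPair m x y = evalDiv a.f b.D / evalDiv b.f a.D := by
  have hex : ∃ (a : Rep m x) (b : Rep m y), a.Disjoint b := ⟨a, b, h⟩
  rw [weilPair, dif_pos hex]
  exact pairVal_eq_of_disjoint hex.choose_spec.choose_spec h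

theorem exists_disjoint_reps (hx : m • x = 0) (hy : m • y = 0) :
    ∃ (a : Rep m x) (b : Rep m y), a.Disjoint b := by
  obtain ⟨b⟩ := Rep.nonempty (K := K) (F := F) hy
  obtain ⟨a, ha⟩ := exists_rep_disjoint hx b
  exact ⟨a, b, ha⟩

theorem weilPair_ne_zero (m : ℕ) (x y : Pic0 K F) : weilPair m x y ≠ 0 := by
  by_cases hex : ∃ (a : Rep m x) (b : Rep m y), a.Disjoint b
  · obtain ⟨a, b, h⟩ := hex
    rw [weilPair_eq a b h]
    exact pairVal_ne_zero h
  · rw [weilPair, dif_neg hex]
    exact one_ne_zero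

theorem weilPair_swap (hx : m • x = 0) (hy : m • y = 0) :
    weilPair m y x = (weilPair m x y)⁻¹ := by
  obtain ⟨a, b, h⟩ := exists_disjoint_reps hx hy
  rw [weilPair_eq a b h, weilPair_eq b a h.symm, inv_div]

theorem weilPair_add_left {x₁ x₂ : Pic0 K F} (hx₁ : m • x₁ = 0) (hx₂ : m • x₂ = 0)
    (hy : m • y = 0) :
    weilPair m (x₁ + x₂) y = weilPair m x₁ y * weilPair m x₂ y := by
  obtain ⟨a₁⟩ := Rep.nonempty (K := K) (F := F) hx₁
  obtain ⟨a₂⟩ := Rep.nonempty (K := K) (F := F) hx₂
  obtain ⟨b, hb₁, hb₂⟩ := exists_rep_disjoint₂ hy a₁ a₂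
  have h₁ := hb₁.symm
  have h₂ := hb₂.symm
  rw [weilPair_eq (a₁.add a₂) b (h₁.add_left h₂), weilPair_eq a₁ b h₁, weilPair_eq a₂ b h₂]
  show evalDiv (a₁.f * a₂.f) b.D / evalDiv b.f (a₁.D + a₂.D) = _
  rw [evalDiv_mul_left h₁.disj_left h₂.disj_left,
    evalDiv_add_right b.f_ne h₁.disj_right h₂.disj_right]
  have := evalDiv_ne_zero b.f_ne h₁.disj_right
  have := evalDiv_ne_zero b.f_ne h₂.disj_right
  field_simp

theorem weilPair_add_right {y₁ y₂ : Pic0 K F} (hx : m • x = 0) (hy₁ : m • y₁ = 0)
    (hy₂ : m • y₂ = 0) :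
    weilPair m x (y₁ + y₂) = weilPair m x y₁ * weilPair m x y₂ := by
  have hy : m • (y₁ + y₂) = 0 := by rw [nsmul_add, hy₁, hy₂, add_zero]
  have h := weilPair_add_left hy₁ hy₂ hx
  rw [weilPair_swap hx hy₁, weilPair_swap hx hy₂, ← mul_inv] at h
  rw [← inv_inj, ← h, weilPair_swap hx hy]

/-- the pairing takes values in the `m`-th roots of unity -/
theorem weilPair_pow (hx : m • x = 0) (hy : m • y = 0) : weilPair m x y ^ m = 1 := by
  obtain ⟨a, b, h⟩ := exists_disjoint_reps hx hy
  rw [weilPair_eq a b h, div_pow, ← evalDiv_nsmul_right, ← evalDiv_nsmul_right, ← a.div_eq,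
    ← b.div_eq]
  have hrec := WeilCurve.reciprocity (K := K) a.f_ne b.f_ne (fun v hv => by
    apply b.ord_f_eq_zero
    apply h v
    intro h0
    exact hv (a.ord_f_eq_zero h0))
  rw [hrec]
  apply div_self
  apply evalDiv_ne_zero b.f_ne
  intro v hv
  rw [divOf_apply'] at hv
  apply b.ord_f_eq_zero
  apply h v
  intro h0
  exact hv (a.ord_f_eq_zero h0)

theorem weilPair_zero_left (hy : m • y = 0) : weilPair m 0 y = 1 := by
  have h := weilPair_add_left (nsmul_zero m) (nsmul_zero m) hy
  rw [add_zero] at h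
  exact (mul_eq_left₀ (weilPair_ne_zero m 0 y)).1 h.symm

theorem weilPair_zero_right (hx : m • x = 0) : weilPair m x 0 = 1 := by
  have h := weilPair_add_right hx (nsmul_zero m) (nsmul_zero m)
  rw [add_zero] at h
  exact (mul_eq_left₀ (weilPair_ne_zero m x 0)).1 h.symm

end WeilPair

/-! ### equivariance under semilinear automorphisms -/

section Equivariant

variable [WeilCurve K F] {m : ℕ} {x y : Pic0 K F} (g : SemilinearAut K F)

theorem divOf_smul (f : F) : divOf (K := K) (g • f) = g • divOf (K := K) f := by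
  ext w
  rw [divOf_apply', SemilinearAut.divisor_smul_apply, divOf_apply']
  conv_lhs => rw [← smul_inv_smul g w]
  rw [SemilinearAut.ord_smul]

/-- transport of a representative -/
def Rep.smul (a : Rep m x) : Rep m (g • x) where
  D := g • a.D
  deg := SemilinearAut.smul_mem_degZero g a.deg
  f := g • a.f
  f_ne := by
    intro h
    apply a.f_ne
    have := congrArg (fun z => g⁻¹ • z) h
    simpa using this
  div_eq := by
    rw [divOf_smul, a.div_eq, smul_comm]
  cls := (SemilinearAut.pic0_smul_mk g ⟨a.D, a.deg⟩).symm.trans (congrArg (g • ·) a.cls)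

theorem Rep.Disjoint.smul {a : Rep m x} {b : Rep m y} (h : a.Disjoint b) :
    (a.smul g).Disjoint (b.smul g) := by
  intro w hw
  show (g • b.D) w = 0
  rw [SemilinearAut.divisor_smul_apply]
  apply h
  have : (g • a.D) w ≠ 0 := hw
  rwa [SemilinearAut.divisor_smul_apply] at this

/-- **equivariance** of the Weil pairing -/
theorem weilPair_smul (hx : m • x = 0) (hy : m • y = 0) :
    weilPair m (g • x) (g • y) = SemilinearAut.baseAut g (weilPair m x y) := by
  obtain ⟨a, b, h⟩ := exists_disjoint_reps hx hy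
  rw [weilPair_eq a b h, weilPair_eq (a.smul g) (b.smul g) (h.smul g), map_div₀]
  show evalDiv (g • a.f) (g • b.D) / evalDiv (g • b.f) (g • a.D) = _
  rw [evalDiv_smul, evalDiv_smul]

end Equivariant

end Fermat.Agent.S15lib.Weil
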