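/-
S15lib / Weil / DetChain  (helper9) — Project E, block WEIL, part 2a.

Abstract input of the norm–value formula: for a Dedekind domain `S` which is an algebra over a
field `K`, and a product `I = Q₁ ⋯ Q_n` of maximal ideals with residue field `K`, the quotient
`S ⧸ I` is finite dimensional over `K` and
  `det_K (s · ∣ S ⧸ I) = ∏_j s(Q_j)`,
where `s(Q) ∈ K` is the residue of `s` at `Q`.
-/
import Mathlib

set_option autoImplicit false
set_option linter.unusedSectionVars false
set_option linter.style.haveILetI false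

noncomputable section

namespace Fermat.Agent.S15lib.Weil

open Module

/-! ### determinants and quotients -/

section LinAlg

variable {K V V'' : Type*} [Field K] [AddCommGroup V] [Module K V] [AddCommGroup V'']
  [Module K V'']

/-- the determinant along a short exact sequence `0 → ker q → V → V'' → 0` -/
theorem det_eq_det_restrict_mul_det_of_surjective [Module.Finite K V] (q : V →ₗ[K] V'')
    (hq : Function.Surjective q) (e : V →ₗ[K] V) (e'' : V'' →ₗ[K] V'')
    (h : q ∘ₗ e = e'' ∘ₗ q) (hker : LinearMap.ker q ≤ (LinearMap.ker q).comap e) :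
    LinearMap.det e = LinearMap.det (e.restrict hker) * LinearMap.det e'' := by
  rw [LinearMap.det_eq_det_mul_det (LinearMap.ker q) e hker]
  congr 1
  -- the quotient by the kernel is `V''`
  let φ : (V ⧸ LinearMap.ker q) ≃ₗ[K] V'' := q.quotKerEquivOfSurjective hq
  have hconj : (LinearMap.ker q).mapQ (LinearMap.ker q) e hker =
      (φ.symm : V'' →ₗ[K] _) ∘ₗ e'' ∘ₗ (φ : _ →ₗ[K] V'') := by
    apply LinearMap.ext
    intro x
    obtain ⟨y, rfl⟩ := Submodule.Quotient.mk_surjective _ x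
    apply φ.injective
    simp only [LinearMap.coe_comp, LinearEquiv.coe_coe, Function.comp_apply,
      LinearEquiv.apply_symm_apply, Submodule.mapQ_apply]
    show q (e y) = e'' (q y)
    exact LinearMap.congr_fun h y
  rw [hconj]
  have := LinearMap.det_conj e'' φ.symm
  simpa using this

end LinAlg

/-! ### the chain of ideals -/

section Chain

variable {K S : Type*} [Field K] [CommRing S] [IsDedekindDomain S] [Algebra K S]

/-- there is no ideal strictly between `I * Q` and `I` -/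
theorem eq_or_eq_of_between {I Q J : Ideal S} (hI : I ≠ ⊥) (hQ : Q.IsPrime) (hQ0 : Q ≠ ⊥)
    (h1 : I * Q ≤ J) (h2 : J ≤ I) : J = I ∨ J = I * Q := by
  obtain ⟨J', rfl⟩ : I ∣ J := Ideal.dvd_iff_le.2 h2
  have h3 : I * J' ∣ I * Q := Ideal.dvd_iff_le.2 h1
  have h4 : J' ∣ Q := (mul_dvd_mul_iff_left hI).1 h3
  have hirr : Irreducible Q := (Ideal.prime_of_isPrime hQ0 hQ).irreducible
  rcases (hirr.dvd_iff).1 h4 with hu | ha
  · left
    rw [Ideal.isUnit_iff] at hu
    rw [hu, Ideal.mul_top]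
  · right
    rw [associated_iff_eq] at ha
    rw [ha]

theorem mul_ne_self {I Q : Ideal S} (hI : I ≠ ⊥) (hQ : Q.IsPrime) : I * Q ≠ I := by
  intro h
  have h2 : I * Q = I * 1 := by rw [h, mul_one]
  have h3 : Q = 1 := mul_left_cancel₀ hI h2
  exact hQ.ne_top (by rw [h3, Ideal.one_eq_top])

/-- the `K`-linear projection `S ⧸ I * Q → S ⧸ I` -/
def factorLin (I Q : Ideal S) : (S ⧸ I * Q) →ₗ[K] (S ⧸ I) :=
  (Ideal.Quotient.factorₐ K (Ideal.mul_le_left : I * Q ≤ I)).toLinearMap

theorem factorLin_mk (I Q : Ideal S) (a : S) :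
    factorLin (K := K) I Q (Ideal.Quotient.mk (I * Q) a) = Ideal.Quotient.mk I a := rfl

theorem factorLin_surjective (I Q : Ideal S) : Function.Surjective (factorLin (K := K) I Q) :=
  Ideal.Quotient.factor_surjective (Ideal.mul_le_left : I * Q ≤ I)

theorem mem_ker_factorLin {I Q : Ideal S} (a : S) :
    Ideal.Quotient.mk (I * Q) a ∈ LinearMap.ker (factorLin (K := K) I Q) ↔ a ∈ I := by
  rw [LinearMap.mem_ker, factorLin_mk, Ideal.Quotient.eq_zero_iff_mem]

/-- the kernel of `S ⧸ I * Q → S ⧸ I` is a line when `S ⧸ Q = K` -/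
theorem exists_ker_factorLin_eq_span {I Q : Ideal S} (hI : I ≠ ⊥) (hQ : Q.IsPrime) (hQ0 : Q ≠ ⊥)
    (hsurj : Function.Surjective (algebraMap K (S ⧸ Q))) :
    ∃ a₀ : S, a₀ ∈ I ∧ Ideal.Quotient.mk (I * Q) a₀ ≠ 0 ∧
      LinearMap.ker (factorLin (K := K) I Q) =
        Submodule.span K {Ideal.Quotient.mk (I * Q) a₀} := by
  have hlt : I * Q < I := lt_of_le_of_ne Ideal.mul_le_left (mul_ne_self hI hQ)
  obtain ⟨a₀, ha₀I, ha₀⟩ := SetLike.exists_of_lt hlt
  refine ⟨a₀, ha₀I, fun h => ha₀ (Ideal.Quotient.eq_zero_iff_mem.1 h), ?_⟩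
  -- `I = (a₀) + I * Q`
  have hJ : Ideal.span {a₀} ⊔ I * Q = I := by
    rcases eq_or_eq_of_between hI hQ hQ0 (le_sup_right : I * Q ≤ Ideal.span {a₀} ⊔ I * Q)
      (sup_le ((Ideal.span_singleton_le_iff_mem I).2 ha₀I) Ideal.mul_le_left) with h | h
    · exact h
    · exfalso
      apply ha₀
      rw [← h]
      exact Ideal.mem_sup_left (Ideal.mem_span_singleton_self a₀)
  apply le_antisymm
  · intro x hx
    obtain ⟨a, rfl⟩ := Ideal.Quotient.mk_surjective x
    rw [mem_ker_factorLin] at hx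
    rw [← hJ, Submodule.mem_sup] at hx
    obtain ⟨y, hy, z, hz, rfl⟩ := hx
    obtain ⟨t, rfl⟩ := Ideal.mem_span_singleton'.1 hy
    obtain ⟨c, hc⟩ := hsurj (Ideal.Quotient.mk Q t)
    have hcQ : t - algebraMap K S c ∈ Q := by
      rw [← Ideal.Quotient.eq_zero_iff_mem, map_sub, sub_eq_zero]
      exact hc.symm
    rw [Submodule.mem_span_singleton]
    refine ⟨c, ?_⟩
    rw [Algebra.smul_def]
    show Ideal.Quotient.mk (I * Q) (algebraMap K S c) * Ideal.Quotient.mk (I * Q) a₀ = _
    rw [← map_mul, eq_comm, ← sub_eq_zero, ← map_sub, Ideal.Quotient.eq_zero_iff_mem]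
    have h1 : t * a₀ + z - algebraMap K S c * a₀ = a₀ * (t - algebraMap K S c) + z := by ring
    rw [h1]
    exact add_mem (Ideal.mul_mem_mul ha₀I hcQ) hz
  · rw [Submodule.span_singleton_le_iff_mem]
    exact (mem_ker_factorLin a₀).2 ha₀I

/-- **one step of the chain** -/
theorem norm_quotient_mul {I Q : Ideal S} (hI : I ≠ ⊥) (hQ : Q.IsPrime) (hQ0 : Q ≠ ⊥)
    (hsurj : Function.Surjective (algebraMap K (S ⧸ Q))) [Module.Finite K (S ⧸ I)]
    (s : S) (c : K) (hc : s - algebraMap K S c ∈ Q) :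
    Module.Finite K (S ⧸ I * Q) ∧
      Algebra.norm K (Ideal.Quotient.mk (I * Q) s) =
        Algebra.norm K (Ideal.Quotient.mk I s) * c := by
  obtain ⟨a₀, ha₀I, hw₀, hker⟩ := exists_ker_factorLin_eq_span (K := K) hI hQ hQ0 hsurj
  set q := factorLin (K := K) I Q with hq
  set w₀ := Ideal.Quotient.mk (I * Q) a₀ with hw₀def
  -- finiteness
  haveI hWfin : Module.Finite K (LinearMap.ker q) := by
    rw [hker]
    infer_instance
  haveI : Module.Finite K ((S ⧸ I * Q) ⧸ LinearMap.ker q) :=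
    Module.Finite.equiv (q.quotKerEquivOfSurjective (factorLin_surjective I Q)).symm
  haveI hVfin : Module.Finite K (S ⧸ I * Q) := Module.Finite.of_submodule_quotient (LinearMap.ker q)
  refine ⟨hVfin, ?_⟩
  -- the two multiplication maps
  set e : (S ⧸ I * Q) →ₗ[K] (S ⧸ I * Q) := Algebra.lmul K (S ⧸ I * Q) (Ideal.Quotient.mk (I * Q) s)
    with he
  set e'' : (S ⧸ I) →ₗ[K] (S ⧸ I) := Algebra.lmul K (S ⧸ I) (Ideal.Quotient.mk I s) with he''
  have hcomm : q ∘ₗ e = e'' ∘ₗ q := by
    apply LinearMap.ext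
    intro x
    obtain ⟨a, rfl⟩ := Ideal.Quotient.mk_surjective x
    show factorLin (K := K) I Q (Ideal.Quotient.mk (I * Q) s * Ideal.Quotient.mk (I * Q) a) =
      Ideal.Quotient.mk I s * factorLin (K := K) I Q (Ideal.Quotient.mk (I * Q) a)
    rw [← map_mul, factorLin_mk, factorLin_mk, map_mul]
  have hstab : LinearMap.ker q ≤ (LinearMap.ker q).comap e := by
    intro x hx
    rw [Submodule.mem_comap, LinearMap.mem_ker]
    have := LinearMap.congr_fun hcomm x
    simp only [LinearMap.coe_comp, Function.comp_apply] at this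
    rw [this, LinearMap.mem_ker.1 hx, map_zero]
  rw [Algebra.norm_apply, Algebra.norm_apply,
    det_eq_det_restrict_mul_det_of_surjective q (factorLin_surjective I Q) e e'' hcomm hstab,
    mul_comm]
  congr 1
  -- the restriction to the kernel is the scalar `c`
  have hew₀ : e w₀ = c • w₀ := by
    show Ideal.Quotient.mk (I * Q) s * Ideal.Quotient.mk (I * Q) a₀ = c • Ideal.Quotient.mk (I * Q) a₀
    rw [Algebra.smul_def]
    show _ = Ideal.Quotient.mk (I * Q) (algebraMap K S c) * Ideal.Quotient.mk (I * Q) a₀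
    rw [← map_mul, ← map_mul, ← sub_eq_zero, ← map_sub, Ideal.Quotient.eq_zero_iff_mem]
    have h1 : s * a₀ - algebraMap K S c * a₀ = a₀ * (s - algebraMap K S c) := by ring
    rw [h1]
    exact Ideal.mul_mem_mul ha₀I hc
  have hres : e.restrict (p := LinearMap.ker q) (q := LinearMap.ker q) hstab = c • LinearMap.id := by
    apply LinearMap.ext
    rintro ⟨x, hx⟩
    apply Subtype.ext
    have hx' := hx
    rw [hker, Submodule.mem_span_singleton] at hx'
    obtain ⟨k, rfl⟩ := hx'
    show e (k • w₀) = c • (k • w₀)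
    rw [map_smul, hew₀, smul_comm]
  have hrank : finrank K (LinearMap.ker q) = 1 := by
    rw [hker]
    exact finrank_span_singleton hw₀
  rw [hres, LinearMap.det_smul, hrank, pow_one, LinearMap.det_id, mul_one]

/-- **the determinant along a chain of maximal ideals with residue field `K`** -/
theorem norm_quotient_multiset_prod (m : Multiset (Ideal S))
    (hm : ∀ Q ∈ m, Q.IsPrime ∧ Q ≠ ⊥ ∧ Function.Surjective (algebraMap K (S ⧸ Q)))
    (s : S) (ρ : Ideal S → K) (hρ : ∀ Q ∈ m, s - algebraMap K S (ρ Q) ∈ Q) :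
    Module.Finite K (S ⧸ m.prod) ∧
      Algebra.norm K (Ideal.Quotient.mk m.prod s) = (m.map ρ).prod := by
  induction m using Multiset.induction_on with
  | empty =>
    rw [Multiset.prod_zero, Multiset.map_zero, Multiset.prod_zero]
    have hsub : Subsingleton (S ⧸ (1 : Ideal S)) := by
      rw [Ideal.one_eq_top]
      exact Ideal.Quotient.subsingleton_iff.2 rfl
    refine ⟨Module.Finite.of_surjective (0 : K →ₗ[K] S ⧸ (1 : Ideal S))
      (fun x => ⟨0, Subsingleton.elim _ _⟩), ?_⟩
    rw [Algebra.norm_apply]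
    exact LinearMap.det_eq_one_of_subsingleton _
  | cons Q m ih =>
    have hm' : ∀ Q' ∈ m, Q'.IsPrime ∧ Q' ≠ ⊥ ∧ Function.Surjective (algebraMap K (S ⧸ Q')) :=
      fun Q' hQ' => hm Q' (Multiset.mem_cons_of_mem hQ')
    have hρ' : ∀ Q' ∈ m, s - algebraMap K S (ρ Q') ∈ Q' :=
      fun Q' hQ' => hρ Q' (Multiset.mem_cons_of_mem hQ')
    obtain ⟨hfin, hnorm⟩ := ih hm' hρ'
    obtain ⟨hQ, hQ0, hsurj⟩ := hm Q (Multiset.mem_cons_self Q m)
    have hI : m.prod ≠ ⊥ := by
      rw [Ne, ← Ideal.zero_eq_bot, Multiset.prod_eq_zero_iff]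
      intro h0
      exact (hm' _ h0).2.1 rfl
    haveI := hfin
    have key := norm_quotient_mul (K := K) hI hQ hQ0 hsurj s (ρ Q)
      (hρ Q (Multiset.mem_cons_self Q m))
    rw [Multiset.prod_cons, Multiset.map_cons, Multiset.prod_cons, mul_comm Q, mul_comm (ρ Q),
      ← hnorm]
    exact key

end Chain

end Fermat.Agent.S15lib.Weil
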