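/-
S15lib / Weil / NormVal  (helper9) — Project E, block WEIL, part 2b.

**The norm–value formula**: for a finite separable extension `F' / F` of function fields over `K`
(all places rational), a place `v` of `F` and `g ∈ F'` which is a unit at every place above `v`,
  `(N_{F'/F} g)(v) = ∏_{w ∣ v} g(w) ^ e(w|v)`.
-/
import Mathlib
import Fermat.Agent.S37lib.Tower.NormFormula
import Fermat.Agent.S15lib.Weil.Eval
import Fermat.Agent.S15lib.Weil.DetChain

set_option autoImplicit false
set_option linter.unusedSectionVars false
set_option linter.style.haveILetI false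

noncomputable section

namespace Fermat.Agent.S15lib.Weil

open AlgebraicCurve IsDedekindDomain Module Fermat.Agent.ProgramR Fermat.Agent.S37lib.Tower
  UniqueFactorizationMonoid IsLocalRing

/-! ### the norm and the quotient by the maximal ideal -/

section Quot

variable {R S : Type*} [CommRing R] [CommRing S] [Algebra R S] [IsLocalRing R]
  [Module.Free R S] [Module.Finite R S]

attribute [local instance] Ideal.Quotient.field

/-- the norm commutes with reduction modulo the maximal ideal (norm analogue of Mathlib's
`Algebra.trace_quotient_mk`) -/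
theorem norm_quotient_mk (x : S) :
    Algebra.norm (R ⧸ maximalIdeal R)
        (Ideal.Quotient.mk ((maximalIdeal R).map (algebraMap R S)) x) =
      Ideal.Quotient.mk (maximalIdeal R) (Algebra.norm R x) := by
  classical
  let ι := Module.Free.ChooseBasisIndex R S
  let b : Module.Basis ι R S := Module.Free.chooseBasis R S
  rw [Algebra.norm_eq_matrix_det b, Algebra.norm_eq_matrix_det (basisQuotient b),
    RingHom.map_det]
  congr 1
  ext i j
  simp only [Algebra.leftMulMatrix_apply, Algebra.coe_lmul_eq_mul, LinearMap.toMatrix_apply,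
    basisQuotient_apply, LinearMap.mul_apply', RingHom.mapMatrix_apply, Matrix.map_apply,
    ← map_mul, basisQuotient_repr]

end Quot

section Main

variable {K F F' : Type*} [Field K] [Field F] [Field F'] [Algebra K F] [Algebra K F']
  [Algebra F F'] [IsScalarTower K F F'] [FiniteDimensional F F'] [Algebra.IsSeparable F F']
  [RatPlaces K F]

variable (v : Place K F)

instance free_Sv : Module.Free v.toValuationSubring (Sv (F' := F') v) :=
  Module.free_of_finite_type_torsion_free'

/-- `O_v ⧸ 𝔪_v ≃ K` -/
def resRingEquiv : (v.toValuationSubring ⧸ pv v) ≃+* K :=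
  (resEquiv v).symm.toRingEquiv

theorem resRingEquiv_mk (a : v.toValuationSubring) :
    resRingEquiv v (Ideal.Quotient.mk (pv v) a) = resK v a := rfl

theorem sub_algebraMap_resK_mem (a : v.toValuationSubring) :
    a - algebraMap K v.toValuationSubring (resK v a) ∈ pv v :=
  (resK_eq_iff v a (resK v a)).1 rfl

attribute [local instance] Ideal.Quotient.field

/-- the residue of the norm is the `K`-norm on `S_v ⧸ 𝔪_v S_v` -/
theorem resK_norm (s : Sv (F' := F') v) :
    resK v (Algebra.norm v.toValuationSubring s) =
      Algebra.norm K (Ideal.Quotient.mk ((pv v).map (algebraMap v.toValuationSubring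
        (Sv (F' := F') v))) s) := by
  have he : (algebraMap K (Sv (F' := F') v ⧸ (pv v).map (algebraMap v.toValuationSubring
        (Sv (F' := F') v)))).comp (resRingEquiv v : (v.toValuationSubring ⧸ pv v) →+* K) =
      ((RingEquiv.refl (Sv (F' := F') v ⧸ (pv v).map (algebraMap v.toValuationSubring
        (Sv (F' := F') v))) : _ ≃+* _) : _ →+* _).comp
        (algebraMap (v.toValuationSubring ⧸ pv v) (Sv (F' := F') v ⧸ (pv v).map (algebraMap
          v.toValuationSubring (Sv (F' := F') v)))) := by
    apply Ideal.Quotient.ringHom_ext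
    ext a
    simp only [RingHom.coe_comp, RingHom.coe_coe, Function.comp_apply, resRingEquiv_mk,
      RingEquiv.refl_apply]
    rw [Ideal.Quotient.algebraMap_quotient_map_quotient]
    rw [IsScalarTower.algebraMap_apply K (Sv (F' := F') v) (Sv (F' := F') v ⧸ _),
      Ideal.Quotient.algebraMap_eq, IsScalarTower.algebraMap_apply K v.toValuationSubring
      (Sv (F' := F') v), eq_comm, ← sub_eq_zero, ← map_sub, ← map_sub,
      Ideal.Quotient.eq_zero_iff_mem]
    exact Ideal.mem_map_of_mem _ (sub_algebraMap_resK_mem v a)
  have h := Algebra.norm_eq_of_equiv_equiv (resRingEquiv v) (RingEquiv.refl _) he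
    (Ideal.Quotient.mk ((pv v).map (algebraMap v.toValuationSubring (Sv (F' := F') v))) s)
  rw [norm_quotient_mk] at h
  rw [RingEquiv.refl_apply] at h
  rw [← resRingEquiv_mk, h, RingEquiv.apply_symm_apply]

/-- an element of `F'` regular at all places above `v` lies in `S_v` -/
theorem exists_Sv_of_ord_nonneg {g : F'}
    (h : ∀ w : Place K F', w.restrict F = v → 0 ≤ w.ord g) :
    ∃ s : Sv (F' := F') v, algebraMap (Sv (F' := F') v) F' s = g := by
  have := IsDedekindDomain.HeightOneSpectrum.mem_integers_of_valuation_le_one
    (R := Sv (F' := F') v) F' g (fun P => ?_)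
  · obtain ⟨s, hs⟩ := this
    exact ⟨s, hs⟩
  · rcases eq_or_ne g 0 with rfl | hg
    · simp
    have h1 := h (placeOf v P) (restrict_placeOf v P)
    rw [placeOf, FF.ord_ofHeightOneSpectrum] at h1
    have h0 : P.valuation F' g ≠ 0 := (Valuation.ne_zero_iff _).2 hg
    rw [← WithZero.log_le_log h0 one_ne_zero, WithZero.log_one]
    omega

variable [RatPlaces K F']

/-- the value at `placeOf v P` is the residue modulo `P` -/
theorem sub_algebraMap_val_mem (P : HeightOneSpectrum (Sv (F' := F') v)) (s : Sv (F' := F') v) :
    s - algebraMap K (Sv (F' := F') v) (val (placeOf v P) (algebraMap (Sv (F' := F') v) F' s)) ∈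
      P.asIdeal := by
  set w := placeOf v P with hw
  set g := algebraMap (Sv (F' := F') v) F' s with hg
  have hmem : g ∈ w.toValuationSubring :=
    FF.algebraMap_mem_ofHeightOneSpectrum (K := K) (F := F') P s
  set r := s - algebraMap K (Sv (F' := F') v) (val w g) with hr
  have hrg : algebraMap (Sv (F' := F') v) F' r = g - algebraMap K F' (val w g) := by
    rw [hr, map_sub, ← IsScalarTower.algebraMap_apply]
  rcases eq_or_ne r 0 with h0 | h0
  · rw [h0]
    exact zero_mem _
  · rw [← FF.ord_algebraMap_pos_iff (K := K) (F := F') P r h0, hrg]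
    rcases (val_eq_iff w hmem (val w g)).1 rfl with h | h
    · exfalso
      apply h0
      apply IsFractionRing.injective (Sv (F' := F') v) F'
      rw [hrg, map_zero, sub_eq_zero]
      exact h
    · exact h

/-- `norm_quotient_multiset_prod` for an ideal given as a product -/
theorem norm_quotient_of_prod_eq {S : Type*} [CommRing S] [IsDedekindDomain S] [Algebra K S]
    {I : Ideal S} (m : Multiset (Ideal S)) (hI : m.prod = I)
    (hm : ∀ Q ∈ m, Q.IsPrime ∧ Q ≠ ⊥ ∧ Function.Surjective (algebraMap K (S ⧸ Q)))
    (s : S) (ρ : Ideal S → K) (hρ : ∀ Q ∈ m, s - algebraMap K S (ρ Q) ∈ Q) :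
    Algebra.norm K (Ideal.Quotient.mk I s) = (m.map ρ).prod := by
  subst hI
  exact (norm_quotient_multiset_prod m hm s ρ hρ).2

/-- the residue function on the ideals of `S_v` -/
def rhoAt (s : Sv (F' := F') v) (Q : Ideal (Sv (F' := F') v)) : K :=
  letI := Classical.propDecidable
  if h : ∃ P : HeightOneSpectrum (Sv (F' := F') v), P.asIdeal = Q then
    val (placeOf v h.choose) (algebraMap (Sv (F' := F') v) F' s) else 0

theorem rhoAt_asIdeal (s : Sv (F' := F') v) (P : HeightOneSpectrum (Sv (F' := F') v)) :
    rhoAt v s P.asIdeal = val (placeOf v P) (algebraMap (Sv (F' := F') v) F' s) := by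
  classical
  have h : ∃ P' : HeightOneSpectrum (Sv (F' := F') v), P'.asIdeal = P.asIdeal := ⟨P, rfl⟩
  rw [rhoAt, dif_pos h]
  have : h.choose = P := HeightOneSpectrum.ext h.choose_spec
  rw [this]

/-- **norm–value formula**, for elements of `S_v` -/
theorem val_norm_algebraMap [HasPrincipalDivisors K F'] (s : Sv (F' := F') v) :
    val v (Algebra.norm F (algebraMap (Sv (F' := F') v) F' s)) =
      ∏ w ∈ v.fiber F', val w (algebraMap (Sv (F' := F') v) F' s) ^ (w.ramificationIndex F) := by
  classical
  have hdeg' : ∀ w : Place K F', w.deg = 1 := RatPlaces.deg_eq_one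
  -- step 1: the value of the norm is the `K`-norm on the fibre algebra
  have h1 : val v (Algebra.norm F (algebraMap (Sv (F' := F') v) F' s)) =
      Algebra.norm K (Ideal.Quotient.mk ((pv v).map (algebraMap v.toValuationSubring
        (Sv (F' := F') v))) s) := by
    rw [← Algebra.algebraMap_intNorm (A := v.toValuationSubring) (B := Sv (F' := F') v),
      Algebra.intNorm_eq_norm, ← resK_norm]
    exact val_coe v _
  -- step 2: the chain
  set m := factors ((pv v).map (algebraMap v.toValuationSubring (Sv (F' := F') v))) with hm
  have hmprod : m.prod = (pv v).map (algebraMap v.toValuationSubring (Sv (F' := F') v)) :=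
    associated_iff_eq.1 (factors_prod (map_pv_ne_bot v))
  have hspec : ∀ Q ∈ m, ∃ P : HeightOneSpectrum (Sv (F' := F') v), P.asIdeal = Q := by
    intro Q hQ
    have hprime := prime_of_factor Q hQ
    exact ⟨⟨Q, Ideal.isPrime_of_prime hprime, hprime.ne_zero⟩, rfl⟩
  have h2 := norm_quotient_of_prod_eq (K := K) m hmprod (fun Q hQ => by
      obtain ⟨P, rfl⟩ := hspec Q hQ
      exact ⟨P.isPrime, P.ne_bot, algebraMap_quotient_surjective v P (hdeg' _)⟩)
    s (rhoAt v s) (fun Q hQ => by
      obtain ⟨P, rfl⟩ := hspec Q hQ
      rw [rhoAt_asIdeal]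
      exact sub_algebraMap_val_mem v P s)
  rw [h1, h2, Finset.prod_multiset_map_count]
  -- step 3: reindex by the fibre
  have key := sum_fiber_eq_sum_primesOver (F' := F') v (M := Additive K)
    (fun w : Place K F' => Additive.ofMul
      (val w (algebraMap (Sv (F' := F') v) F' s) ^ (w.ramificationIndex F)))
    (fun Q : Ideal (Sv (F' := F') v) => Additive.ofMul (rhoAt v s Q ^ m.count Q))
    (fun P => by
      rw [rhoAt_asIdeal, ramificationIndex_placeOf,
        Ideal.IsDedekindDomain.ramificationIdx_eq_factors_count (pv v) P.asIdeal (map_pv_ne_bot v)])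
  rw [← ofMul_prod, ← ofMul_prod] at key
  exact (Additive.ofMul.injective key).symm

/-- **norm–value formula**: `(N g)(v) = ∏_{w ∣ v} g(w)^{e(w|v)}` for `g` regular above `v` -/
theorem val_norm [HasPrincipalDivisors K F'] {g : F'}
    (h : ∀ w : Place K F', w.restrict F = v → 0 ≤ w.ord g) :
    val v (Algebra.norm F g) = ∏ w ∈ v.fiber F', val w g ^ (w.ramificationIndex F) := by
  obtain ⟨s, rfl⟩ := exists_Sv_of_ord_nonneg v h
  exact val_norm_algebraMap v s

end Main

/-! ### values and restriction of places -/

section Restrict

variable {K F F' : Type*} [Field K] [Field F] [Field F'] [Algebra K F] [Algebra K F']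
  [Algebra F F'] [IsScalarTower K F F'] [Algebra.IsIntegral F F'] [RatPlaces K F]
  [RatPlaces K F']

/-- the value of a function of `F` at a place of `F'` is its value at the restricted place -/
theorem val_algebraMap_eq_val_restrict (w : Place K F') (f : F) :
    val w (algebraMap F F' f) = val (w.restrict F) f := by
  by_cases hf : f ∈ (w.restrict F).toValuationSubring
  · have hf' : algebraMap F F' f ∈ w.toValuationSubring := (Place.mem_restrict_iff w).1 hf
    rw [val_eq_iff w hf']
    rcases (val_eq_iff (w.restrict F) hf (val (w.restrict F) f)).1 rfl with h | h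
    · left
      conv_lhs => rw [h]
      rw [← IsScalarTower.algebraMap_apply]
    · right
      have h2 : algebraMap F F' f - algebraMap K F' (val (w.restrict F) f) =
          algebraMap F F' (f - algebraMap K F (val (w.restrict F) f)) := by
        rw [map_sub, ← IsScalarTower.algebraMap_apply]
      rw [h2, w.ord_restrict]
      have hepos : 0 < Place.ramificationIndex (F := F) w := w.ramificationIndex_pos (F := F)
      positivity
  · have hf' : algebraMap F F' f ∉ w.toValuationSubring := fun h => hf ((Place.mem_restrict_iff w).2 h)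
    rw [val_of_not_mem _ hf, val_of_not_mem _ hf']

end Restrict

end Fermat.Agent.S15lib.Weil
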