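/-
S15lib / Weil / Reciprocity  (helper9)

**Weil reciprocity** `f(div g) = g(div f)` for two functions with disjoint divisors on a function
field in one variable over an algebraically closed field of characteristic zero.

The proof is the classical one: the two projection formulas for the finite extension
`F / K(f)` (`evalDiv_pullback`, `evalDiv_pushforward`) reduce the statement to the projective
line with coordinate `f`, where it is `IsP1Gen.reciprocity`.
-/
import Mathlib
import Fermat.Agent.S15lib.Weil.NormVal
import Fermat.Agent.S15lib.Weil.P1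

set_option autoImplicit false
set_option linter.unusedSectionVars false
set_option linter.style.haveILetI false

noncomputable section

namespace Fermat.Agent.S15lib.Weil

open AlgebraicCurve IntermediateField Fermat.Agent.ProgramR Fermat.Agent.S18lib
  Fermat.Agent.S37lib.Tower

/-! ### values on a sum of distinct places -/

section SumSingle

variable {K F : Type*} [Field K] [Field F] [Algebra K F] [RatPlaces K F]

theorem disj_finset_sum {ι : Type*} {f : F} (S : Finset ι) (D : ι → Divisor K F)
    (h : ∀ i ∈ S, Disj f (D i)) : Disj f (∑ i ∈ S, D i) := by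
  classical
  induction S using Finset.induction_on with
  | empty => simpa using Disj.zero_right f
  | insert i S hi ih =>
    rw [Finset.sum_insert hi]
    exact (h i (Finset.mem_insert_self i S)).add_right
      (ih fun j hj => h j (Finset.mem_insert_of_mem hj))

theorem evalDiv_finset_sum {ι : Type*} {f : F} (hf : f ≠ 0) (S : Finset ι) (D : ι → Divisor K F)
    (h : ∀ i ∈ S, Disj f (D i)) : evalDiv f (∑ i ∈ S, D i) = ∏ i ∈ S, evalDiv f (D i) := by
  classical
  induction S using Finset.induction_on with
  | empty => simp
  | insert i S hi ih =>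
    rw [Finset.sum_insert hi, Finset.prod_insert hi,
      evalDiv_add_right hf (h i (Finset.mem_insert_self i S))
        (disj_finset_sum S D fun j hj => h j (Finset.mem_insert_of_mem hj)),
      ih fun j hj => h j (Finset.mem_insert_of_mem hj)]

end SumSingle

/-! ### the projection formulas -/

section Projection

variable {K F F' : Type*} [Field K] [Field F] [Field F'] [Algebra K F] [Algebra K F']
  [Algebra F F'] [IsScalarTower K F F'] [FiniteDimensional F F'] [Algebra.IsSeparable F F']
  [RatPlaces K F] [RatPlaces K F'] [HasPrincipalDivisors K F'] [CharZero F]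

theorem disj_pullback {g : F'} {D : Divisor K F}
    (hD : ∀ w : Place K F', D (w.restrict F) ≠ 0 → w.ord g = 0) :
    Disj g (Divisor.pullback F' D) := by
  intro w hw
  apply hD w
  intro h0
  apply hw
  rw [Divisor.pullback_apply, h0, mul_zero]

theorem disj_norm {g : F'} (hg : g ≠ 0) {D : Divisor K F}
    (hD : ∀ w : Place K F', D (w.restrict F) ≠ 0 → w.ord g = 0) :
    Disj (Algebra.norm F g) D := by
  intro v hv
  rw [ord_norm v RatPlaces.deg_eq_one hg]
  refine Finset.sum_eq_zero fun w hw => ?_
  rw [Place.mem_fiber] at hw
  exact hD w (by rwa [hw])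

theorem evalDiv_pullback_single {g : F'} (hg : g ≠ 0) (v : Place K F) (n : ℤ)
    (hv : ∀ w : Place K F', w.restrict F = v → w.ord g = 0) :
    evalDiv g (Divisor.pullback F' (Finsupp.single v n)) = val v (Algebra.norm F g) ^ n := by
  rw [Divisor.pullback_single, evalDiv_finset_sum hg]
  · rw [val_norm v fun w hw => (hv w hw).ge, ← Finset.prod_zpow]
    refine Finset.prod_congr rfl fun w hw => ?_
    rw [evalDiv_single, mul_comm, zpow_mul, zpow_natCast]
  · intro w hw
    exact Disj.single (hv w (Place.mem_fiber.1 hw)) _

/-- **projection formula, pull-back**: `g(π^* D) = (N g)(D)` -/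
theorem evalDiv_pullback {g : F'} (hg : g ≠ 0) (D : Divisor K F)
    (hD : ∀ w : Place K F', D (w.restrict F) ≠ 0 → w.ord g = 0) :
    evalDiv g (Divisor.pullback F' D) = evalDiv (Algebra.norm F g) D := by
  classical
  induction D using Finsupp.induction with
  | zero => simp
  | single_add v n D hv hn ih =>
    have hDv : D v = 0 := Finsupp.notMem_support_iff.1 hv
    have h1 : ∀ w : Place K F', (Finsupp.single v n : Divisor K F) (w.restrict F) ≠ 0 →
        w.ord g = 0 := by
      intro w hw
      have hwv : w.restrict F = v := by
        by_contra hne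
        exact hw (Finsupp.single_eq_of_ne hne)
      apply hD w
      rw [hwv, Finsupp.add_apply, Finsupp.single_eq_same, hDv, add_zero]
      exact hn
    have h2 : ∀ w : Place K F', D (w.restrict F) ≠ 0 → w.ord g = 0 := by
      intro w hw
      have hwv : w.restrict F ≠ v := by
        rintro h
        exact hw (h ▸ hDv)
      apply hD w
      rwa [Finsupp.add_apply, Finsupp.single_eq_of_ne hwv, zero_add]
    have hNg : Algebra.norm F g ≠ 0 := Algebra.norm_ne_zero_iff.2 hg
    rw [map_add, evalDiv_add_right hg (disj_pullback h1) (disj_pullback h2),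
      evalDiv_add_right hNg (disj_norm hg h1) (disj_norm hg h2), ih h2,
      evalDiv_pullback_single hg v n, evalDiv_single]
    intro w hw
    apply h1 w
    rw [hw, Finsupp.single_eq_same]
    exact hn

theorem ord_eq_zero_of_ord_algebraMap_eq_zero (w : Place K F') {f : F}
    (h : w.ord (algebraMap F F' f) = 0) : (w.restrict F).ord f = 0 := by
  rw [w.ord_restrict] at h
  have hepos : 0 < Place.ramificationIndex (F := F) w := w.ramificationIndex_pos (F := F)
  rcases mul_eq_zero.1 h with h | h
  · omega
  · exact h

theorem disj_pushforward {f : F} {D : Divisor K F'} (hD : Disj (algebraMap F F' f) D) :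
    Disj f (Divisor.pushforward F D) := by
  classical
  intro v hv
  rw [Divisor.pushforward_apply] at hv
  obtain ⟨w, hw, hne⟩ := Finset.exists_ne_zero_of_sum_ne_zero hv
  by_cases hwv : w.restrict F = v
  · rw [← hwv]
    exact ord_eq_zero_of_ord_algebraMap_eq_zero w (hD w (Finsupp.mem_support_iff.1 hw))
  · rw [if_neg hwv] at hne
    exact absurd rfl hne

/-- **projection formula, push-forward**: `(π^* f)(D) = f(π_* D)` -/
theorem evalDiv_pushforward {f : F} (hf : f ≠ 0) (D : Divisor K F')
    (hD : Disj (algebraMap F F' f) D) :
    evalDiv (algebraMap F F' f) D = evalDiv f (Divisor.pushforward F D) := by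
  classical
  induction D using Finsupp.induction with
  | zero => simp
  | single_add w n D hw hn ih =>
    have hDw : D w = 0 := Finsupp.notMem_support_iff.1 hw
    have hf' : algebraMap F F' f ≠ 0 := (map_ne_zero _).2 hf
    have h1 : w.ord (algebraMap F F' f) = 0 := by
      apply hD w
      rw [Finsupp.add_apply, Finsupp.single_eq_same, hDw, add_zero]
      exact hn
    have h2 : Disj (algebraMap F F' f) D := by
      intro w' hw'
      have hne : w' ≠ w := by
        rintro rfl
        exact hw' hDw
      apply hD w'
      rwa [Finsupp.add_apply, Finsupp.single_eq_of_ne hne, zero_add]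
    rw [evalDiv_add_right hf' (Disj.single h1 n) h2, map_add, Divisor.pushforward_single,
      evalDiv_add_right hf (Disj.single (ord_eq_zero_of_ord_algebraMap_eq_zero w h1) _)
        (disj_pushforward h2), ih h2, evalDiv_single, evalDiv_single,
      val_algebraMap_eq_val_restrict, prelude_inertiaDeg_eq_one RatPlaces.deg_eq_one w,
      Nat.cast_one, mul_one]

end Projection

/-! ### Weil reciprocity -/

section Main

variable {K F : Type*} [Field K] [Field F] [Algebra K F] [IsAlgClosed K] [CharZero K]

/-- the generator of `K(f)` is a coordinate of the projective line -/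
theorem isP1Gen_gen {f : F} (hf : Transcendental K f) :
    IsP1Gen K (AdjoinSimple.gen K f) := by
  refine ⟨?_, ?_⟩
  · intro h
    apply hf
    have := (isAlgebraic_algebraMap_iff (A := F) (algebraMap K⟮f⟯ F).injective).2 h
    rwa [AdjoinSimple.algebraMap_gen] at this
  · rw [eq_top_iff]
    rintro ⟨y, hy⟩ -
    obtain ⟨r, s, rfl⟩ := (IntermediateField.mem_adjoin_simple_iff K y).1 hy
    rw [IntermediateField.mem_adjoin_simple_iff]
    refine ⟨r, s, ?_⟩
    apply (algebraMap K⟮f⟯ F).injective
    rw [map_div₀, ← Polynomial.aeval_algebraMap_apply, ← Polynomial.aeval_algebraMap_apply,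
      AdjoinSimple.algebraMap_gen]
    rfl

variable (x : F) [FiniteDimensional K⟮x⟯ F] [RatPlaces K F] [HasPrincipalDivisors K F]

include x in
/-- **Weil reciprocity**, transcendental case -/
theorem weil_reciprocity_of_transcendental {f g : F} (hf : Transcendental K f) (hg : g ≠ 0)
    (hfg : ∀ v : Place K F, v.ord f ≠ 0 → v.ord g = 0) :
    evalDiv f (divOf (K := K) g) = evalDiv g (divOf (K := K) f) := by
  have ht := isP1Gen_gen hf
  haveI : FiniteDimensional K⟮f⟯ F := FF.finiteDimensional_adjoin_of_transcendental x hf
  haveI : CharZero K⟮f⟯ := charZero_of_injective_algebraMap (algebraMap K K⟮f⟯).injective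
  haveI := ht.finiteDimensional
  haveI : RatPlaces K K⟮f⟯ := ratPlaces_of_finiteDimensional (AdjoinSimple.gen K f)
  haveI : HasPrincipalDivisors K K⟮f⟯ := FF.hasPrincipalDivisors (AdjoinSimple.gen K f) ht.transc
  set t : K⟮f⟯ := AdjoinSimple.gen K f with ht_def
  have hft : algebraMap K⟮f⟯ F t = f := AdjoinSimple.algebraMap_gen K f
  have ht0 : t ≠ 0 := ht.gen_ne_zero
  have hNg : Algebra.norm K⟮f⟯ g ≠ 0 := Algebra.norm_ne_zero_iff.2 hg
  -- the divisor of `f` is the pull-back of the divisor of `t`
  have hpull : Divisor.pullback F (divOf (K := K) t) = divOf (K := K) f := by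
    ext w
    rw [Divisor.pullback_apply_eq_ord (fun v => divOf_apply' t v), hft, divOf_apply']
  -- the divisor of the norm of `g` is the push-forward of the divisor of `g`
  have hpush : Divisor.pushforward K⟮f⟯ (divOf (K := K) g) =
      divOf (K := K) (Algebra.norm K⟮f⟯ g) :=
    Divisor.pushforward_eq_of_normFormula (pushforwardNormFormula RatPlaces.deg_eq_one) hg
      (fun w => divOf_apply' g w) (fun v => divOf_apply' _ v)
  -- disjointness, upstairs and downstairs
  have hdisj : ∀ w : Place K F, (divOf (K := K) t) (w.restrict K⟮f⟯) ≠ 0 → w.ord g = 0 := by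
    intro w hw
    apply hfg w
    rw [← hft, w.ord_restrict]
    rw [divOf_apply'] at hw
    have hepos : 0 < Place.ramificationIndex (F := K⟮f⟯) w := w.ramificationIndex_pos (F := K⟮f⟯)
    exact mul_ne_zero (by omega) hw
  have hdisj' : Disj (algebraMap K⟮f⟯ F t) (divOf (K := K) g) := by
    intro w hw
    rw [hft]
    by_contra hne
    exact hw (by rw [divOf_apply', hfg w hne])
  have hdown : ∀ v : Place K K⟮f⟯, v.ord t ≠ 0 → v.ord (Algebra.norm K⟮f⟯ g) = 0 := by
    intro v hv
    exact disj_norm hg hdisj v (by rwa [divOf_apply'])
  calc evalDiv f (divOf (K := K) g)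
      = evalDiv (algebraMap K⟮f⟯ F t) (divOf (K := K) g) := by rw [hft]
    _ = evalDiv t (divOf (K := K) (Algebra.norm K⟮f⟯ g)) := by
        rw [evalDiv_pushforward ht0 _ hdisj', hpush]
    _ = evalDiv (Algebra.norm K⟮f⟯ g) (divOf (K := K) t) := ht.reciprocity hNg hdown
    _ = evalDiv g (divOf (K := K) f) := by
        rw [← hpull, evalDiv_pullback hg _ hdisj]

include x in
/-- **Weil reciprocity**: `f(div g) = g(div f)` for functions with disjoint divisors. -/
theorem weil_reciprocity {f g : F} (hf : f ≠ 0) (hg : g ≠ 0)
    (hfg : ∀ v : Place K F, v.ord f ≠ 0 → v.ord g = 0) :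
    evalDiv f (divOf (K := K) g) = evalDiv g (divOf (K := K) f) := by
  by_cases hfa : IsAlgebraic K f
  · obtain ⟨c, rfl⟩ := FF.exists_algebraMap_eq_of_isAlgebraic hfa
    have hc : c ≠ 0 := by
      rintro rfl
      exact hf (map_zero _)
    have h0 : divOf (K := K) (algebraMap K F c) = 0 := by
      ext v
      rw [divOf_apply', Tame.ord_const v hc, Finsupp.zero_apply]
    rw [h0, evalDiv_zero_right, evalDiv_algebraMap_of_degree_eq_zero hc (degree_divOf g)]
  · exact weil_reciprocity_of_transcendental x hfa hg hfg

end Main

end Fermat.Agent.S15lib.Weil
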