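/-
S15lib / Weil / Functorial  (helper9)

**Adjunction of the Weil pairing under correspondences**: for two finite maps
`φ ψ : F →ₐ[K] F'` of function fields,
  `e_m(ψ_* φ^* x, y) = e_m(x, φ_* ψ^* y)`
(`weilPair_correspondence`).  For the Hecke correspondences of the prelude this is
`e(T x, y) = e(x, Tᵗ y)`.
-/
import Mathlib
import Fermat.Agent.S15lib.Weil.Pairing
import Fermat.Agent.S15lib.Weil.Reciprocity
import Fermat.Prelude.Def_AlgebraicCurve_Correspondence

set_option autoImplicit false
set_option linter.unusedSectionVars false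
set_option linter.style.haveILetI false

noncomputable section

namespace Fermat.Agent.S15lib.Weil

open AlgebraicCurve Fermat.Agent.S18lib Fermat.Agent.S37lib.Tower

variable {K F F' : Type*} [Field K] [Field F] [Field F'] [Algebra K F] [Algebra K F']
  [CharZero K]

/-- the norm along a map of fields -/
def normAlong (φ : F →ₐ[K] F') (g : F') : F :=
  letI := algebraAlong φ
  Algebra.norm F g

section Along

variable [RatPlaces K F] [RatPlaces K F'] [HasPrincipalDivisors K F']
  (φ : F →ₐ[K] F') (hφ : φ.toRingHom.IsIntegral) (hfin : FiniteAlong K φ)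

include hfin in
theorem normAlong_ne_zero {g : F'} (hg : g ≠ 0) : normAlong φ g ≠ 0 := by
  letI := algebraAlong φ
  haveI : Module.Finite F F' := hfin
  exact Algebra.norm_ne_zero_iff.2 hg

include hfin in
/-- projection formula, pull-back, along a map -/
theorem evalDiv_pullbackAlong {g : F'} (hg : g ≠ 0) (D : Divisor K F)
    (hD : ∀ w : Place K F', D (w.restrictAlong φ hφ) ≠ 0 → w.ord g = 0) :
    evalDiv g (Divisor.pullbackAlong φ hφ D) = evalDiv (normAlong φ g) D := by
  letI := algebraAlong φ
  haveI := isScalarTower_along φ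
  haveI := isIntegral_along φ hφ
  haveI : Module.Finite F F' := hfin
  haveI : CharZero F := charZero_of_injective_algebraMap (algebraMap K F).injective
  exact evalDiv_pullback hg D hD

include hfin in
/-- projection formula, push-forward, along a map -/
theorem evalDiv_pushforwardAlong {f : F} (hf : f ≠ 0) (D : Divisor K F')
    (hD : Disj (φ f) D) :
    evalDiv (φ f) D = evalDiv f (Divisor.pushforwardAlong φ hφ D) := by
  letI := algebraAlong φ
  haveI := isScalarTower_along φ
  haveI := isIntegral_along φ hφ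
  haveI : Module.Finite F F' := hfin
  haveI : CharZero F := charZero_of_injective_algebraMap (algebraMap K F).injective
  exact evalDiv_pushforward hf D hD

/-- the divisor of a pulled back function -/
theorem divOf_map [HasPrincipalDivisors K F] (f : F) :
    divOf (K := K) (φ f) = Divisor.pullbackAlong φ hφ (divOf (K := K) f) := by
  letI := algebraAlong φ
  haveI := isScalarTower_along φ
  haveI := isIntegral_along φ hφ
  ext w
  rw [divOf_apply']
  exact (Divisor.pullback_apply_eq_ord (fun v => divOf_apply' f v) w).symm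

/-- the divisor of a norm -/
theorem divOf_normAlong [HasPrincipalDivisors K F] (hN : NormFormulaAlong K φ hfin) (g : F') :
    divOf (K := K) (normAlong φ g) = Divisor.pushforwardAlong φ hφ (divOf (K := K) g) := by
  rcases eq_or_ne g 0 with rfl | hg
  · have : normAlong φ (0 : F') = 0 := by
      letI := algebraAlong φ
      haveI : Module.Finite F F' := hfin
      exact Algebra.norm_zero
    rw [this, divOf_zero, divOf_zero, map_zero]
  letI := algebraAlong φ
  haveI := isScalarTower_along φ
  haveI := isIntegral_along φ hφ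
  haveI : Module.Finite F F' := hfin
  exact (Divisor.pushforward_eq_of_normFormula hN hg (fun w => divOf_apply' g w)
    (fun v => divOf_apply' _ v)).symm

theorem pushforwardAlong_apply_ne_zero {D : Divisor K F'} {v : Place K F}
    (h : Divisor.pushforwardAlong φ hφ D v ≠ 0) :
    ∃ w : Place K F', w.restrictAlong φ hφ = v ∧ D w ≠ 0 := by
  classical
  letI := algebraAlong φ
  haveI := isScalarTower_along φ
  haveI := isIntegral_along φ hφ
  have h' : Divisor.pushforward F D v ≠ 0 := h
  rw [Divisor.pushforward_apply] at h'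
  obtain ⟨w, hw, hne⟩ := Finset.exists_ne_zero_of_sum_ne_zero h'
  by_cases hwv : w.restrict F = v
  · exact ⟨w, hwv, Finsupp.mem_support_iff.1 hw⟩
  · rw [if_neg hwv] at hne
    exact absurd rfl hne

theorem pullbackAlong_apply_ne_zero {D : Divisor K F} {w : Place K F'}
    (h : Divisor.pullbackAlong φ hφ D w ≠ 0) : D (w.restrictAlong φ hφ) ≠ 0 := by
  intro h0
  apply h
  rw [Divisor.pullbackAlong_apply, h0, mul_zero]

theorem ord_map_eq_zero {f : F} {w : Place K F'} (h : (w.restrictAlong φ hφ).ord f = 0) :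
    w.ord (φ f) = 0 := by
  rw [Place.ord_restrictAlong φ hφ, h, mul_zero]

end Along

/-! ### the representative of the image under a correspondence -/

section Corr

variable [WeilCurve K F] [WeilCurve K F']
  (φ ψ : F →ₐ[K] F') (hφ : φ.toRingHom.IsIntegral) (hψ : ψ.toRingHom.IsIntegral)
  (hFI : FundamentalIdentityAlong K φ hφ)
  (hfin : FiniteAlong K ψ) (hN : NormFormulaAlong K ψ hfin)

/-- the representative `(ψ_* φ^* D, N_ψ(φ f))` of the image of a class under the
correspondence `ψ_* φ^*` -/
def Rep.corr {m : ℕ} {x : Pic0 K F} (a : Rep m x) :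
    Rep m (Pic0.correspondence φ ψ hφ hψ hFI hfin hN x) where
  D := Divisor.correspondence φ ψ hφ hψ a.D
  deg := Divisor.correspondence_mem_degZero φ ψ hφ hψ hFI a.deg
  f := normAlong ψ (φ a.f)
  f_ne := normAlong_ne_zero ψ hfin ((map_ne_zero φ).2 a.f_ne)
  div_eq := by
    rw [divOf_normAlong ψ hψ hfin hN, divOf_map φ hφ, a.div_eq, map_nsmul, map_nsmul]
    rfl
  cls := (show Pic0.mk ⟨Divisor.correspondence φ ψ hφ hψ a.D,
        Divisor.correspondence_mem_degZero φ ψ hφ hψ hFI a.deg⟩ =
      Pic0.correspondence φ ψ hφ hψ hFI hfin hN (Pic0.mk ⟨a.D, a.deg⟩) from rfl).trans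
    (congrArg _ a.cls)

end Corr

/-! ### the adjunction -/

section Adjunction

variable [WeilCurve K F] [WeilCurve K F']
  (φ ψ : F →ₐ[K] F') (hφ : φ.toRingHom.IsIntegral) (hψ : ψ.toRingHom.IsIntegral)
  (hFIφ : FundamentalIdentityAlong K φ hφ) (hFIψ : FundamentalIdentityAlong K ψ hψ)
  (hfinφ : FiniteAlong K φ) (hfinψ : FiniteAlong K ψ)
  (hNφ : NormFormulaAlong K φ hfinφ) (hNψ : NormFormulaAlong K ψ hfinψ)

/-- **adjunction of the Weil pairing**: `e(ψ_* φ^* x, y) = e(x, φ_* ψ^* y)` -/
theorem weilPair_correspondence {m : ℕ} {x y : Pic0 K F} (hx : m • x = 0) (hy : m • y = 0) :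
    weilPair m (Pic0.correspondence φ ψ hφ hψ hFIφ hfinψ hNψ x) y =
      weilPair m x (Pic0.correspondence ψ φ hψ hφ hFIψ hfinφ hNφ y) := by
  classical
  obtain ⟨a⟩ := Rep.nonempty (K := K) (F := F) hx
  obtain ⟨b₀⟩ := Rep.nonempty (K := K) (F := F) hy
  -- the places of `F` to avoid: `ψ`-images of the `φ`-fibres over the support of `a.D`
  let S : Finset (Place K F) :=
    (a.D.support.biUnion fun v => Place.fiberAlong φ hφ v).image fun w => w.restrictAlong ψ hψ
  obtain ⟨b, hb⟩ := exists_rep_avoiding b₀ S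
  -- the key disjointness on `F'`
  have hkey : ∀ w : Place K F', a.D (w.restrictAlong φ hφ) ≠ 0 →
      b.D (w.restrictAlong ψ hψ) = 0 := by
    intro w hw
    apply hb
    apply Finset.mem_image_of_mem
    rw [Finset.mem_biUnion]
    exact ⟨w.restrictAlong φ hφ, Finsupp.mem_support_iff.2 hw, Place.mem_fiberAlong.2 rfl⟩
  have hkey' : ∀ w : Place K F', b.D (w.restrictAlong ψ hψ) ≠ 0 →
      a.D (w.restrictAlong φ hφ) = 0 := by
    intro w hw
    by_contra hne
    exact hw (hkey w hne)
  -- the representatives of the images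
  set a' := Rep.corr φ ψ hφ hψ hFIφ hfinψ hNψ a with ha'
  set b' := Rep.corr ψ φ hψ hφ hFIψ hfinφ hNφ b with hb'
  have hdisj₁ : a'.Disjoint b := by
    intro v hv
    obtain ⟨w, rfl, hw⟩ := pushforwardAlong_apply_ne_zero ψ hψ hv
    exact hkey w (pullbackAlong_apply_ne_zero φ hφ hw)
  have hdisj₂ : a.Disjoint b' := by
    apply Rep.Disjoint.symm
    intro v hv
    obtain ⟨w, rfl, hw⟩ := pushforwardAlong_apply_ne_zero φ hφ hv
    exact hkey' w (pullbackAlong_apply_ne_zero ψ hψ hw)
  rw [weilPair_eq a' b hdisj₁, weilPair_eq a b' hdisj₂]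
  show evalDiv (normAlong ψ (φ a.f)) b.D /
      evalDiv b.f (Divisor.pushforwardAlong ψ hψ (Divisor.pullbackAlong φ hφ a.D)) =
    evalDiv a.f (Divisor.pushforwardAlong φ hφ (Divisor.pullbackAlong ψ hψ b.D)) /
      evalDiv (normAlong φ (ψ b.f)) a.D
  have hφa : φ a.f ≠ 0 := (map_ne_zero φ).2 a.f_ne
  have hψb : ψ b.f ≠ 0 := (map_ne_zero ψ).2 b.f_ne
  -- orders of the pulled back functions
  have hordφ : ∀ w : Place K F', a.D (w.restrictAlong φ hφ) = 0 → w.ord (φ a.f) = 0 :=
    fun w hw => ord_map_eq_zero φ hφ (a.ord_f_eq_zero hw)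
  have hordψ : ∀ w : Place K F', b.D (w.restrictAlong ψ hψ) = 0 → w.ord (ψ b.f) = 0 :=
    fun w hw => ord_map_eq_zero ψ hψ (b.ord_f_eq_zero hw)
  rw [← evalDiv_pullbackAlong ψ hψ hfinψ hφa b.D (fun w hw => hordφ w (hkey' w hw)),
    ← evalDiv_pushforwardAlong ψ hψ hfinψ b.f_ne _ (fun w hw =>
      hordψ w (hkey w (pullbackAlong_apply_ne_zero φ hφ hw))),
    ← evalDiv_pullbackAlong φ hφ hfinφ hψb a.D (fun w hw => hordψ w (hkey w hw)),
    ← evalDiv_pushforwardAlong φ hφ hfinφ a.f_ne _ (fun w hw =>
      hordφ w (hkey' w (pullbackAlong_apply_ne_zero ψ hψ hw)))]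

end Adjunction

end Fermat.Agent.S15lib.Weil
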