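/-
S15lib / Weil / Moving  (helper9)

**Prescribed orders at finitely many places** (a form of weak approximation, proved from
Riemann's theorem): on a curve `F / K` (in the sense of `S18lib.IsCurveOfGenus`) over an infinite
field, for every finite set `S` of places and integers `n v` there is a non-zero function `h`
with `ord_v h = n v` for all `v ∈ S`.  Consequently every divisor can be moved away from `S`.
-/
import Mathlib
import Fermat.Agent.S18lib.Setup.CurveRR
import Fermat.Agent.S18lib.Setup.DivLemmas

set_option autoImplicit false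
set_option linter.unusedSectionVars false
set_option linter.style.haveILetI false

noncomputable section

namespace Fermat.Agent.S15lib.Weil

open AlgebraicCurve Fermat.Agent.S18lib Module

variable {K F : Type*} [Field K] [Field F] [Algebra K F] {g : ℕ}

/-- the divisor `∑_{v ∈ S} n v • (v)` -/
def finDiv (S : Finset (Place K F)) (n : Place K F → ℤ) : Divisor K F :=
  ∑ v ∈ S, Finsupp.single v (n v)

theorem finDiv_apply_of_mem {S : Finset (Place K F)} (n : Place K F → ℤ) {v : Place K F}
    (hv : v ∈ S) : finDiv S n v = n v := by
  classical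
  rw [finDiv, Finset.sum_apply', Finset.sum_eq_single_of_mem v hv, Finsupp.single_eq_same]
  intro w _ hw
  exact Finsupp.single_eq_of_ne' hw

theorem finDiv_apply_of_not_mem {S : Finset (Place K F)} (n : Place K F → ℤ) {v : Place K F}
    (hv : v ∉ S) : finDiv S n v = 0 := by
  classical
  rw [finDiv, Finset.sum_apply']
  refine Finset.sum_eq_zero fun w hw => Finsupp.single_eq_of_ne ?_
  rintro rfl
  exact hv hw

/-- **prescribed orders at finitely many places** -/
theorem exists_ord_eq (hF : IsCurveOfGenus K F g) [Infinite K] (S : Finset (Place K F))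
    (n : Place K F → ℤ) : ∃ h : F, h ≠ 0 ∧ ∀ v ∈ S, v.ord h = n v := by
  classical
  haveI := hF.infinite_places
  rcases S.eq_empty_or_nonempty with rfl | hne
  · exact ⟨1, one_ne_zero, fun v hv => absurd hv (Finset.notMem_empty v)⟩
  -- an auxiliary place outside `S`
  obtain ⟨P₀, hP₀⟩ := Infinite.exists_notMem_finset S
  -- the divisor `A = -∑ n v (v) + N (P₀)` of large degree
  set B : Divisor K F := finDiv S fun v => -n v with hB
  set N : ℤ := 2 * (g : ℤ) + 1 - Divisor.degree B with hN
  set A : Divisor K F := B + Finsupp.single P₀ N with hA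
  have hdegA : Divisor.degree A = 2 * (g : ℤ) + 1 := by
    rw [hA, map_add, Divisor.degree_single, hF.deg_eq_one P₀, hN]
    push_cast
    ring
  have hAv : ∀ v ∈ S, A v = -n v := by
    intro v hv
    have hne : v ≠ P₀ := by
      rintro rfl
      exact hP₀ hv
    rw [hA, Finsupp.add_apply, hB, finDiv_apply_of_mem _ hv, Finsupp.single_eq_of_ne hne,
      add_zero]
  -- the subspaces `L(A - v) ⊂ L(A)`
  let W : Place K F → Submodule K (riemannRochSpace A) := fun v =>
    (riemannRochSpace (A - Finsupp.single v 1)).comap (riemannRochSpace A).subtype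
  have hle : ∀ v, riemannRochSpace (A - Finsupp.single v 1) ≤ riemannRochSpace A := by
    intro v
    apply riemannRochSpace_mono
    rw [Finsupp.le_def]
    intro w
    rw [Finsupp.sub_apply]
    have : (0 : ℤ) ≤ (Finsupp.single v (1 : ℤ) : Divisor K F) w := by
      by_cases hvw : w = v
      · rw [hvw, Finsupp.single_eq_same]; exact zero_le_one
      · rw [Finsupp.single_eq_of_ne hvw]
    linarith
  have hproper : ∀ v, W v ≠ ⊤ := by
    intro v htop
    have hle' : riemannRochSpace A ≤ riemannRochSpace (A - Finsupp.single v 1) := by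
      intro f hf
      have : (⟨f, hf⟩ : riemannRochSpace A) ∈ W v := by rw [htop]; exact Submodule.mem_top
      exact this
    have heq : riemannRochSpace (A - Finsupp.single v 1) = riemannRochSpace A :=
      le_antisymm (hle v) hle'
    have h1 := hF.riemann_eq A (by rw [hdegA]; linarith)
    have h2 := hF.riemann_eq (A - Finsupp.single v 1) (by
      rw [map_sub, Divisor.degree_single, hF.deg_eq_one v, hdegA]
      push_cast
      linarith)
    rw [heq, h1, map_sub, Divisor.degree_single, hF.deg_eq_one v] at h2
    push_cast at h2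
    linarith
  -- a vector outside all of them
  have hcov : ⋃ p ∈ S.image W, ((p : Submodule K (riemannRochSpace A)) :
      Set (riemannRochSpace A)) ≠ Set.univ := by
    apply Subspace.biUnion_ne_univ_of_top_notMem
    intro hmem
    obtain ⟨v, -, hv⟩ := Finset.mem_image.1 hmem
    exact hproper v hv
  obtain ⟨⟨h, hhA⟩, hh⟩ := (Set.ne_univ_iff_exists_notMem _).1 hcov
  have hnot : ∀ v ∈ S, h ∉ riemannRochSpace (A - Finsupp.single v 1) := by
    intro v hv hmem
    apply hh
    simp only [Set.mem_iUnion]
    exact ⟨W v, Finset.mem_image_of_mem W hv, hmem⟩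
  have hh0 : h ≠ 0 := by
    rintro rfl
    obtain ⟨v, hv⟩ := hne
    exact hnot v hv (Submodule.zero_mem _)
  refine ⟨h, hh0, fun v hv => ?_⟩
  have h1 : -A v ≤ v.ord h := ((mem_riemannRochSpace_iff.1 hhA) v).resolve_left hh0
  have h2 : ¬ (-(A v - 1) ≤ v.ord h) := by
    intro hcon
    apply hnot v hv
    rw [mem_riemannRochSpace_iff]
    intro w
    right
    by_cases hwv : w = v
    · rw [hwv, Finsupp.sub_apply, Finsupp.single_eq_same]
      exact hcon
    · rw [Finsupp.sub_apply, Finsupp.single_eq_of_ne hwv, sub_zero]
      exact ((mem_riemannRochSpace_iff.1 hhA) w).resolve_left hh0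
  rw [hAv v hv] at h1 h2
  omega

/-- **moving lemma**: every divisor is linearly equivalent to one which avoids a given finite
set of places -/
theorem exists_move [HasPrincipalDivisors K F] (hF : IsCurveOfGenus K F g) [Infinite K]
    (S : Finset (Place K F)) (D : Divisor K F) :
    ∃ h : F, h ≠ 0 ∧ ∀ v ∈ S, (D + divOf (K := K) h) v = 0 := by
  obtain ⟨h, hh, hord⟩ := exists_ord_eq hF S fun v => -D v
  refine ⟨h, hh, fun v hv => ?_⟩
  rw [Finsupp.add_apply, divOf_apply', hord v hv, add_neg_cancel]

end Fermat.Agent.S15lib.Weil
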