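/-
S15lib / Weil / Instance  (helper9)

Function fields in one variable over an algebraically closed field of characteristic zero satisfy
the axioms `WeilCurve` of the Weil pairing.
-/
import Mathlib
import Fermat.Agent.S15lib.Weil.Pairing
import Fermat.Agent.S15lib.Weil.Reciprocity
import Fermat.Agent.S15lib.Weil.Moving
import Fermat.Agent.S18lib.RRgen.Canonical
import Fermat.Agent.S27lib.Iface

set_option autoImplicit false
set_option linter.unusedSectionVars false
set_option linter.style.haveILetI false

noncomputable section

namespace Fermat.Agent.S15lib.Weil

open AlgebraicCurve IntermediateField Fermat.Agent.ProgramR Fermat.Agent.S18lib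

variable {K F : Type*} [Field K] [Field F] [Algebra K F] [IsAlgClosed K] [CharZero K]

/-- function fields over an algebraically closed field of characteristic zero are Weil curves -/
theorem weilCurve_of_finiteDimensional (x : F) [FiniteDimensional K⟮x⟯ F]
    (hx : Transcendental K x) : WeilCurve K F := by
  haveI : CharZero K⟮x⟯ := charZero_of_injective_algebraMap (algebraMap K K⟮x⟯).injective
  have hF := RRgen.Canonical.isCurveOfGenus_genusOf K hx
  haveI := ratPlaces_of_finiteDimensional (K := K) x
  haveI := FF.hasPrincipalDivisors x hx
  refine { reciprocity := ?_, moving := ?_, const_of_ord_eq_zero := ?_ }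
  · intro f g hf hg hfg
    exact weil_reciprocity x hf hg hfg
  · intro S n
    exact exists_ord_eq hF S n
  · intro u hu hord
    have hmem : u ∈ riemannRochSpace (0 : Divisor K F) := by
      rw [mem_riemannRochSpace_iff]
      intro v
      right
      rw [hord v, Finsupp.zero_apply, neg_zero]
    rw [hF.riemannRochSpace_zero] at hmem
    obtain ⟨c, hc⟩ := Algebra.mem_bot.1 hmem
    exact ⟨c, hc.symm⟩

instance (priority := 50) weilCurve_of_isFunField {K : Type*} {F : Type*} [Field K] [Field F]
    [Algebra K F] [IsAlgClosed K] [CharZero K] [S27lib.IsFunField K F] : WeilCurve K F := by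
  obtain ⟨x, hx, hfin⟩ := S27lib.IsFunField.exists_sep (K := K) (F := F)
  haveI := hfin
  exact weilCurve_of_finiteDimensional x hx

end Fermat.Agent.S15lib.Weil
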