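/-
S15lib / Weil / Modular  (helper9)

The Weil pairing on `J₀(N)(ℚ̄) = Pic⁰(FBar N)`: instance of `WeilCurve`, Galois equivariance,
and the adjunction `e(T_q x, y) = e(x, T_qᵗ y)` for the Hecke correspondences
(`T_q = α_* β^* = S29lib.H.heckeStd`, `T_qᵗ = β_* α^* = S29lib.H.heckeTr`).
-/
import Mathlib
import Fermat.Agent.S15lib.Weil.Functorial
import Fermat.Agent.S15lib.Weil.Instance
import Fermat.Agent.S29lib.H.TJ

set_option autoImplicit false
set_option linter.unusedSectionVars false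
set_option linter.style.haveILetI false

noncomputable section

namespace Fermat.Agent.S15lib.Weil

open AlgebraicCurve ModularCurve Fermat.Agent.S37lib.HeckeInst

local notation "Qb" => AlgebraicClosure ℚ
local notation "GQ" => (AlgebraicClosure ℚ ≃ₐ[ℚ] AlgebraicClosure ℚ)

/-- the modular function fields are Weil curves -/
instance weilCurve_FB (M : ℕ) [NeZero M] : WeilCurve Qb (FB M) :=
  weilCurve_of_finiteDimensional (jB M) (transcendental_jB M)

variable (N : ℕ) [NeZero N]

/-- **Galois equivariance** of the Weil pairing on `J₀(N)` -/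
theorem weilPair_galois {m : ℕ} {x y : JZero N} (hx : m • x = 0) (hy : m • y = 0) (σ : GQ) :
    weilPair m (σ • x) (σ • y) = σ (weilPair m x y) := by
  rw [galois_smul_pic0_def, galois_smul_pic0_def, weilPair_smul _ hx hy,
    baseAut_arithmeticGalois]
  rfl

/-- **(W3)** adjunction for the Hecke correspondences: `e(T x, y) = e(x, Tᵗ y)` -/
theorem weilPair_heckeStd (ℓ : ℕ) [NeZero ℓ] {m : ℕ} {x y : JZero N} (hx : m • x = 0)
    (hy : m • y = 0) :
    weilPair m (Fermat.Agent.S29lib.H.heckeStd N ℓ x) y =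
      weilPair m x (Fermat.Agent.S29lib.H.heckeTr N ℓ y) :=
  weilPair_correspondence (heckeBetaBar Qb N ℓ) (heckeAlphaBar Qb N ℓ)
    (heckeBetaBarIntegral N ℓ) (heckeAlphaBarIntegral N ℓ)
    (fundamentalIdentityAlong_beta N ℓ) (fundamentalIdentityAlong_alpha N ℓ)
    (finiteAlong_beta N ℓ) (finiteAlong_alpha N ℓ)
    (normFormulaAlong_beta N ℓ) (normFormulaAlong_alpha N ℓ) hx hy

/-- **(W3)** in terms of `TJ`, at primes not dividing the level -/
theorem weilPair_TJ (q : Nat.Primes) (hq : ¬ (q : ℕ) ∣ N) {m : ℕ} {x y : JZero N}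
    (hx : m • x = 0) (hy : m • y = 0) :
    weilPair m (Fermat.Agent.S29lib.H.TJ N q x) y =
      weilPair m x ((haveI : NeZero (q : ℕ) := ⟨q.2.ne_zero⟩;
        Fermat.Agent.S29lib.H.heckeTr N q) y) := by
  haveI : NeZero (q : ℕ) := ⟨q.2.ne_zero⟩
  rw [Fermat.Agent.S29lib.H.TJ_of_not_dvd N hq]
  exact weilPair_heckeStd N q hx hy

end Fermat.Agent.S15lib.Weil
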