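/-
S15lib / Weil / Cover  (helper9)

Tower lemmas for the proof of the non-degeneracy of the Weil pairing:
* a finite extension of a function field is a function field (`finiteDimensional_adjoin_map`);
* automorphisms of `F' / F` permute the places above a place of `F` (`restrict_smul_ofAlgAut`);
* the representative `(π_* E', N g)` of a push-forward class (`Rep.pushforward`).
-/
import Mathlib
import Fermat.Agent.S15lib.Weil.Pairing
import Fermat.Agent.S15lib.Weil.Reciprocity

set_option autoImplicit false
set_option linter.unusedSectionVars false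
set_option linter.style.haveILetI false

noncomputable section

namespace Fermat.Agent.S15lib.Weil

open AlgebraicCurve IntermediateField Fermat.Agent.S18lib Fermat.Agent.S37lib.Tower

section Finite

variable {K F F' : Type*} [Field K] [Field F] [Field F'] [Algebra K F] [Algebra K F']
  [Algebra F F'] [IsScalarTower K F F']

/-- a finite extension of a function field is a function field -/
theorem finiteDimensional_adjoin_map [FiniteDimensional F F'] (x : F)
    [FiniteDimensional K⟮x⟯ F] : FiniteDimensional K⟮algebraMap F F' x⟯ F' := by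
  let φ : F →ₐ[K] F' := IsScalarTower.toAlgHom K F F'
  have hmap : ∀ c : K⟮x⟯, algebraMap F F' (c : F) ∈ K⟮algebraMap F F' x⟯ := by
    intro c
    have h1 : φ (c : F) ∈ (K⟮x⟯).map φ := ⟨c, c.2, rfl⟩
    rw [IntermediateField.adjoin_map, Set.image_singleton] at h1
    exact h1
  obtain ⟨s, hs⟩ := (Module.Finite.fg_top (R := K⟮x⟯) (M := F))
  obtain ⟨t, ht⟩ := (Module.Finite.fg_top (R := F) (M := F'))
  classical
  -- the products `algebraMap a * b`, `a ∈ s`, `b ∈ t`, span `F'` over `K(x')`
  refine ⟨⟨(s ×ˢ t).image fun p => algebraMap F F' p.1 * p.2, ?_⟩⟩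
  set T : Submodule K⟮algebraMap F F' x⟯ F' := Submodule.span K⟮algebraMap F F' x⟯
    (((s ×ˢ t).image fun p => algebraMap F F' p.1 * p.2 : Finset F') : Set F') with hT
  have L1 : ∀ e : F, ∀ b ∈ t, algebraMap F F' e * b ∈ T := by
    intro e b hb
    have he : e ∈ Submodule.span K⟮x⟯ (s : Set F) := by rw [hs]; trivial
    induction he using Submodule.span_induction with
    | zero => rw [map_zero, zero_mul]; exact Submodule.zero_mem _
    | add a' b' _ _ ha' hb' => rw [map_add, add_mul]; exact Submodule.add_mem _ ha' hb'
    | mem a' ha' =>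
      apply Submodule.subset_span
      rw [Finset.coe_image]
      exact ⟨(a', b), Finset.mem_coe.2 (Finset.mem_product.2 ⟨ha', hb⟩), rfl⟩
    | smul d a' _ ha' =>
      have hd : (⟨algebraMap F F' (d : F), hmap d⟩ : K⟮algebraMap F F' x⟯) •
          (algebraMap F F' a' * b) = algebraMap F F' (d • a') * b := by
        rw [Algebra.smul_def, Algebra.smul_def, map_mul, mul_assoc]
        rfl
      rw [← hd]
      exact Submodule.smul_mem _ _ ha'
  have L2 : ∀ c : F, ∀ z ∈ T, algebraMap F F' c * z ∈ T := by
    intro c z hz
    induction hz using Submodule.span_induction with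
    | zero => rw [mul_zero]; exact Submodule.zero_mem _
    | add a b _ _ ha hb => rw [mul_add]; exact Submodule.add_mem _ ha hb
    | smul d a _ ha =>
      rw [Algebra.smul_def, mul_left_comm, ← Algebra.smul_def]
      exact Submodule.smul_mem _ _ ha
    | mem w hw =>
      rw [Finset.coe_image] at hw
      obtain ⟨⟨a, b⟩, hab, rfl⟩ := hw
      obtain ⟨-, hb⟩ := Finset.mem_product.1 (Finset.mem_coe.1 hab)
      show algebraMap F F' c * (algebraMap F F' a * b) ∈ _
      rw [← mul_assoc, ← map_mul]
      exact L1 (c * a) b hb
  rw [eq_top_iff]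
  intro y _
  have hy : y ∈ Submodule.span F (t : Set F') := by rw [ht]; trivial
  induction hy using Submodule.span_induction with
  | zero => exact Submodule.zero_mem _
  | add a b _ _ ha hb => exact Submodule.add_mem _ (ha trivial) (hb trivial)
  | mem z hz =>
    have := L1 1 z hz
    rwa [map_one, one_mul] at this
  | smul c z _ hz =>
    rw [Algebra.smul_def]
    exact L2 c z (hz trivial)

end Finite

section Aut

variable {K F F' : Type*} [Field K] [Field F] [Field F'] [Algebra K F] [Algebra K F']
  [Algebra F F'] [IsScalarTower K F F'] [Algebra.IsIntegral F F']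

/-- an `F`-automorphism of `F'`, as a semilinear automorphism over `K` -/
def autSL (σ : F' ≃ₐ[F] F') : SemilinearAut K F' :=
  SemilinearAut.ofAlgAut (σ.restrictScalars K)

theorem autSL_smul (σ : F' ≃ₐ[F] F') (z : F') : autSL (K := K) σ • z = σ z := rfl

theorem baseAut_autSL (σ : F' ≃ₐ[F] F') : SemilinearAut.baseAut (autSL (K := K) σ) = 1 := rfl

/-- automorphisms of `F' / F` permute the places above a place of `F` -/
theorem restrict_smul_autSL (σ : F' ≃ₐ[F] F') (w : Place K F') :
    (autSL (K := K) σ • w).restrict F = w.restrict F := by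
  apply Place.ext
  ext f
  rw [Place.mem_restrict_iff, Place.mem_restrict_iff, Fermat.Agent.ProgramR.FF.mem_iff_ord_nonneg,
    Fermat.Agent.ProgramR.FF.mem_iff_ord_nonneg]
  have h := SemilinearAut.ord_smul (autSL (K := K) σ) w (algebraMap F F' f)
  rw [autSL_smul, σ.commutes] at h
  rw [h]

theorem val_smul_autSL [RatPlaces K F'] (σ : F' ≃ₐ[F] F') (w : Place K F') (z : F') :
    val (autSL (K := K) σ • w) (σ z) = val w z := by
  have h := val_smul (autSL (K := K) σ) w z
  rwa [autSL_smul, baseAut_autSL] at h

theorem ord_smul_autSL (σ : F' ≃ₐ[F] F') (w : Place K F') (z : F') :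
    (autSL (K := K) σ • w).ord (σ z) = w.ord z :=
  SemilinearAut.ord_smul (autSL (K := K) σ) w z

end Aut

/-! ### the representative of a push-forward class -/

section Push

variable {K F F' : Type*} [Field K] [Field F] [Field F'] [Algebra K F] [Algebra K F']
  [Algebra F F'] [IsScalarTower K F F'] [FiniteDimensional F F'] [Algebra.IsSeparable F F']
  [RatPlaces K F] [RatPlaces K F'] [HasPrincipalDivisors K F] [HasPrincipalDivisors K F']
  [CharZero F]

theorem divOf_norm (g : F') :
    divOf (K := K) (Algebra.norm F g) = Divisor.pushforward F (divOf (K := K) g) := by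
  rcases eq_or_ne g 0 with rfl | hg
  · rw [Algebra.norm_zero, divOf_zero, divOf_zero, map_zero]
  exact (Divisor.pushforward_eq_of_normFormula (pushforwardNormFormula RatPlaces.deg_eq_one) hg
    (fun w => divOf_apply' g w) (fun v => divOf_apply' _ v)).symm

theorem divOf_algebraMap (f : F) :
    divOf (K := K) (algebraMap F F' f) = Divisor.pullback F' (divOf (K := K) f) := by
  ext w
  rw [divOf_apply']
  exact (Divisor.pullback_apply_eq_ord (fun v => divOf_apply' f v) w).symm

/-- the representative `(π_* E, N g)` of the push-forward of the class of `E`, when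
`div g = m E + E₀` with `π_* E₀ = 0` -/
def Rep.pushforward {m : ℕ} (E E₀ : Divisor K F')
    (hE : E ∈ Divisor.degZero (K := K) (F := F')) (g : F') (hg : g ≠ 0)
    (hdiv : divOf (K := K) g = m • E + E₀) (hE₀ : Divisor.pushforward F E₀ = 0) :
    Rep m (Pic0.mk ⟨Divisor.pushforward F E, Divisor.pushforward_mem_degZero hE⟩ : Pic0 K F) where
  D := Divisor.pushforward F E
  deg := Divisor.pushforward_mem_degZero hE
  f := Algebra.norm F g
  f_ne := Algebra.norm_ne_zero_iff.2 hg
  div_eq := by
    rw [divOf_norm, hdiv, map_add, hE₀, add_zero, map_nsmul]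
  cls := rfl

end Push

end Fermat.Agent.S15lib.Weil
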