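/-
S15lib / Weil / NonDeg  (helper9)

**Non-degeneracy of the Weil pairing at prime level** `ℓ`.  For `0 ≠ x ∈ Pic⁰(F)[ℓ]`, `x = [D]`,
`ℓ D = div f`, the Kummer cover `F' = F(u)`, `u^ℓ = f`, with its automorphism `σ u = ζ u`, and a
class `y'` on `F'` with `ℓ y' = [(Q') - (σ Q')]` give `y = π_* y' ∈ Pic⁰(F)[ℓ]` with
`e_ℓ(x, y) = ζ ≠ 1`.

The only input which is not proved here is the divisibility of `Pic⁰(F')` by `ℓ` for the
function field `F'` (`DivisibleAt`, provided by block U1).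
-/
import Mathlib
import Fermat.Agent.S15lib.Weil.Cover
import Fermat.Agent.S15lib.Weil.Instance

set_option autoImplicit false
set_option linter.unusedSectionVars false
set_option linter.style.haveILetI false

noncomputable section

namespace Fermat.Agent.S15lib.Weil

open AlgebraicCurve IntermediateField Fermat.Agent.S18lib Fermat.Agent.S37lib.Tower
  Fermat.Agent.ProgramR

section Tower

variable {K F F' : Type*} [Field K] [Field F] [Field F'] [Algebra K F] [Algebra K F']
  [Algebra F F'] [IsScalarTower K F F'] [Algebra.IsIntegral F F']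

theorem pushforward_apply_ne_zero {D : Divisor K F'} {v : Place K F}
    (h : Divisor.pushforward F D v ≠ 0) : ∃ w : Place K F', w.restrict F = v ∧ D w ≠ 0 := by
  classical
  rw [Divisor.pushforward_apply] at h
  obtain ⟨w, hw, hne⟩ := Finset.exists_ne_zero_of_sum_ne_zero h
  by_cases hwv : w.restrict F = v
  · exact ⟨w, hwv, Finsupp.mem_support_iff.1 hw⟩
  · rw [if_neg hwv] at hne
    exact absurd rfl hne

end Tower

section AbstractCover

variable {K F F' : Type*} [Field K] [Field F] [Field F'] [Algebra K F] [Algebra K F']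
  [Algebra F F'] [IsScalarTower K F F'] [FiniteDimensional F F'] [CharZero K]
  [WeilCurve K F] [WeilCurve K F']

/-- **the cover computation**: a cyclic cover `u^ℓ = f_x` with an automorphism `σ u = ζ u` and a
solution of `ℓ y' = [(Q') - (σ Q')]` produce `y` with `e_ℓ(x, y) = ζ`. -/
theorem exists_weilPair_eq_of_cover [Infinite (Place K F')] {ℓ : ℕ} (hℓ : 0 < ℓ)
    {x : Pic0 K F} (a : Rep ℓ x) (u : F') (hu : u ^ ℓ = algebraMap F F' a.f)
    (σ : F' ≃ₐ[F] F') (ζ : K) (hσ : σ u = algebraMap K F' ζ * u)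
    (hdiv : ∀ z : Pic0 K F', ∃ w : Pic0 K F', ℓ • w = z) :
    ∃ y : Pic0 K F, ℓ • y = 0 ∧ weilPair ℓ x y = ζ := by
  classical
  haveI : CharZero F := charZero_of_injective_algebraMap (algebraMap K F).injective
  haveI : Algebra.IsSeparable F F' := inferInstance
  have hℓ0 : (ℓ : ℤ) ≠ 0 := by exact_mod_cast hℓ.ne'
  -- basic facts on `u`
  have hu0 : u ≠ 0 := by
    intro h
    rw [h, zero_pow hℓ.ne'] at hu
    exact a.f_ne ((map_eq_zero _).1 hu.symm)
  have hζ0 : ζ ≠ 0 := by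
    rintro rfl
    rw [map_zero, zero_mul] at hσ
    exact hu0 ((map_eq_zero σ).1 hσ)
  have hζ0' : algebraMap K F' ζ ≠ 0 := (map_ne_zero _).2 hζ0
  have hordu : ∀ w : Place K F', w.ord u = w.ramificationIndex F * a.D (w.restrict F) := by
    intro w
    have h1 : w.ord (u ^ ℓ) = ℓ * w.ord u := by
      rw [← zpow_natCast, Place.ord_zpow]
    rw [hu, w.ord_restrict, a.ord_f] at h1
    have h2 : (ℓ : ℤ) * w.ord u = ℓ * (w.ramificationIndex F * a.D (w.restrict F)) := by
      rw [← h1]; ring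
    exact mul_left_cancel₀ hℓ0 h2
  have hDu : ∀ w : Place K F', a.D (w.restrict F) ≠ 0 → w.ord u ≠ 0 := by
    intro w hw
    rw [hordu]
    have hepos : 0 < Place.ramificationIndex (F := F) w := w.ramificationIndex_pos (F := F)
    exact mul_ne_zero (by omega) hw
  have hpull : Divisor.pullback F' a.D = divOf (K := K) u := by
    ext w
    rw [Divisor.pullback_apply, divOf_apply', hordu]
  -- the two places `Q'` and `σ Q'`
  obtain ⟨Q', hQ'⟩ := Infinite.exists_notMem_finset (divOf (K := K) u).support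
  have hQ'u : Q'.ord u = 0 := by
    rw [Finsupp.notMem_support_iff, divOf_apply'] at hQ'
    exact hQ'
  set Q'' : Place K F' := autSL (K := K) σ • Q' with hQ''
  have hQ''u : Q''.ord u = 0 := by
    have h := ord_smul_autSL (K := K) σ Q' u
    rw [hσ, Place.ord_mul _ hζ0' hu0, Tame.ord_const _ hζ0, zero_add, hQ'u] at h
    exact h
  have hres : Q''.restrict F = Q'.restrict F := restrict_smul_autSL σ Q'
  set E₀ : Divisor K F' := Finsupp.single Q' 1 - Finsupp.single Q'' 1 with hE₀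
  have hE₀deg : E₀ ∈ Divisor.degZero (K := K) (F := F') := by
    rw [Divisor.mem_degZero, hE₀, map_sub, Divisor.degree_single, Divisor.degree_single,
      RatPlaces.deg_eq_one Q', RatPlaces.deg_eq_one Q'']
    ring
  have hE₀push : Divisor.pushforward F E₀ = 0 := by
    rw [hE₀, map_sub, Divisor.pushforward_single, Divisor.pushforward_single, hres,
      prelude_inertiaDeg_eq_one RatPlaces.deg_eq_one Q',
      prelude_inertiaDeg_eq_one RatPlaces.deg_eq_one Q'', sub_self]
  have hE₀u : ∀ w : Place K F', w.ord u ≠ 0 → E₀ w = 0 := by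
    intro w hw
    have h1 : w ≠ Q' := by rintro rfl; exact hw hQ'u
    have h2 : w ≠ Q'' := by rintro rfl; exact hw hQ''u
    rw [hE₀, Finsupp.sub_apply, Finsupp.single_eq_of_ne h1, Finsupp.single_eq_of_ne h2, sub_zero]
  -- divisibility on the cover
  obtain ⟨y', hy'⟩ := hdiv (Pic0.mk ⟨E₀, hE₀deg⟩)
  obtain ⟨⟨E₁, hE₁⟩, rfl⟩ := Pic0.mk_surjective y'
  have hy'' : Pic0.mk (ℓ • (⟨E₁, hE₁⟩ : Divisor.degZero (K := K) (F := F'))) =
      Pic0.mk ⟨E₀, hE₀deg⟩ := hy'
  obtain ⟨h₁, hh₁, hdiv₁⟩ := exists_divOf_eq_sub_of_mk_eq hE₀deg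
    (ℓ • (⟨E₁, hE₁⟩ : Divisor.degZero (K := K) (F := F'))).2 hy''.symm
  have hdiv₁' : divOf (K := K) h₁ = ℓ • E₁ - E₀ := by
    rw [hdiv₁]
    push_cast
    rfl
  -- move `E₁` away from the zeros and poles of `u`
  obtain ⟨k, hk, hkord⟩ := WeilCurve.moving (K := K) (divOf (K := K) u).support fun w => -E₁ w
  set E' : Divisor K F' := E₁ + divOf (K := K) k with hE'
  have hE'deg : E' ∈ Divisor.degZero (K := K) (F := F') := add_mem hE₁ (divOf_mem_degZero k)
  have hE'u : ∀ w : Place K F', w.ord u ≠ 0 → E' w = 0 := by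
    intro w hw
    have hmem : w ∈ (divOf (K := K) u).support := by
      rw [Finsupp.mem_support_iff, divOf_apply']
      exact hw
    rw [hE', Finsupp.add_apply, divOf_apply', hkord w hmem, add_neg_cancel]
  set g : F' := h₁ * k ^ ℓ with hg
  have hg0 : g ≠ 0 := mul_ne_zero hh₁ (pow_ne_zero _ hk)
  have hdivg : divOf (K := K) g = ℓ • E' + -E₀ := by
    rw [hg, divOf_mul hh₁ (pow_ne_zero _ hk), divOf_pow, hdiv₁', hE', smul_add]
    abel
  have hgu : ∀ w : Place K F', w.ord u ≠ 0 → w.ord g = 0 := by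
    intro w hw
    rw [← divOf_apply' (K := K), hdivg, Finsupp.add_apply, Finsupp.smul_apply, Finsupp.neg_apply,
      hE'u w hw, hE₀u w hw, smul_zero, neg_zero, add_zero]
  -- the class `y`
  have hE₀push' : Divisor.pushforward F (-E₀) = 0 := by rw [map_neg, hE₀push, neg_zero]
  set b := Rep.pushforward (F := F) E' (-E₀) hE'deg g hg0 hdivg hE₀push' with hb
  refine ⟨_, b.nsmul_eq_zero, ?_⟩
  have hdisj : a.Disjoint b := by
    intro v hv
    by_contra hne
    obtain ⟨w, rfl, hw⟩ := pushforward_apply_ne_zero (F := F) (D := E') hne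
    exact hw (hE'u w (hDu w hv))
  rw [weilPair_eq a b hdisj]
  show evalDiv a.f (Divisor.pushforward F E') / evalDiv (Algebra.norm F g) a.D = ζ
  -- disjointness facts upstairs
  have hDisj_uE' : Disj u E' := by
    intro w hw
    by_contra hne
    exact hw (hE'u w hne)
  have hDisj_uE₀ : Disj u E₀ := by
    intro w hw
    by_contra hne
    exact hw (hE₀u w hne)
  have hDisj_ug : Disj u (divOf (K := K) g) := by
    intro w hw
    by_contra hne
    rw [divOf_apply'] at hw
    exact hw (hgu w hne)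
  have hDisj_fE' : Disj (algebraMap F F' a.f) E' := by
    rw [← hu]
    exact hDisj_uE'.pow_left ℓ
  -- numerator
  have hnum : evalDiv a.f (Divisor.pushforward F E') =
      evalDiv u (divOf (K := K) g) * evalDiv u E₀ := by
    rw [← evalDiv_pushforward a.f_ne E' hDisj_fE', ← hu, evalDiv_pow_left hDisj_uE',
      ← evalDiv_nsmul_right, ← evalDiv_add_right hu0 hDisj_ug hDisj_uE₀, hdivg]
    congr 1
    abel
  -- denominator
  have hden : evalDiv (Algebra.norm F g) a.D = evalDiv u (divOf (K := K) g) := by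
    rw [← evalDiv_pullback hg0 a.D (fun w hw => hgu w (hDu w hw)), hpull]
    refine (WeilCurve.reciprocity (K := K) hu0 hg0 hgu).symm
  have hne : evalDiv u (divOf (K := K) g) ≠ 0 := evalDiv_ne_zero hu0 hDisj_ug
  rw [hnum, hden, mul_div_cancel_left₀ _ hne, hE₀,
    evalDiv_sub_right hu0 (Disj.single hQ'u 1) (Disj.single hQ''u 1), evalDiv_single,
    evalDiv_single, zpow_one, zpow_one]
  -- the values at `Q'` and `σ Q'`
  have hval : val Q'' (σ u) = val Q' u := val_smul_autSL (K := K) σ Q' u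
  rw [hσ, val_mul _ (Q''.algebraMap_mem' ζ) (mem_of_ord_eq_zero _ hQ''u), val_algebraMap] at hval
  rw [← hval, mul_div_cancel_right₀ _ (val_ne_zero _ hu0 hQ''u)]

end AbstractCover

/-! ### the Kummer cover -/

section Kummer

open Polynomial

universe u v

variable {K : Type u} {F : Type v} [Field K] [Field F] [Algebra K F] [IsAlgClosed K] [CharZero K]

/-- **(U1) at `ℓ`**: `Pic⁰` of every function field over `K` (in the universe `v`) is
`ℓ`-divisible -/
def DivisibleAt (K : Type u) [Field K] (ℓ : ℕ) : Prop :=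
  ∀ (F' : Type v) [Field F'] [Algebra K F'] (x' : F'), Transcendental K x' →
    FiniteDimensional K⟮x'⟯ F' → ∀ z : Pic0 K F', ∃ w : Pic0 K F', ℓ • w = z

/-- the function of a representative of a non-zero `ℓ`-torsion class is not an `ℓ`-th power -/
theorem Rep.not_pow [HasPrincipalDivisors K F] {ℓ : ℕ} (hℓ : 0 < ℓ) {x : Pic0 K F}
    (a : Rep ℓ x) (hx0 : x ≠ 0) (h : F) : h ^ ℓ ≠ a.f := by
  intro hh
  apply hx0
  have hh0 : h ≠ 0 := by
    rintro rfl
    rw [zero_pow hℓ.ne'] at hh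
    exact a.f_ne hh.symm
  have hD : a.D = divOf (K := K) h := by
    ext v
    have h1 := a.ord_f v
    rw [← hh, ← zpow_natCast, Place.ord_zpow] at h1
    rw [divOf_apply']
    have hℓ0 : (ℓ : ℤ) ≠ 0 := by exact_mod_cast hℓ.ne'
    exact (mul_left_cancel₀ hℓ0 h1).symm
  rw [← a.cls]
  show Pic0.mk ⟨a.D, a.deg⟩ = 0
  rw [Pic0.mk, QuotientAddGroup.eq_zero_iff, AddSubgroup.mem_addSubgroupOf]
  show a.D ∈ Divisor.principal (K := K) (F := F)
  rw [hD]
  exact divOf_mem_principal hh0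

theorem exists_weilPair_ne_one_aux (x₀ : F) [FiniteDimensional K⟮x₀⟯ F]
    (hx₀ : Transcendental K x₀) [WeilCurve K F] {ℓ : ℕ} (hℓ : ℓ.Prime)
    (hU1 : DivisibleAt.{u, v} K ℓ) {x : Pic0 K F} (a : Rep ℓ x)
    [Fact (Irreducible (X ^ ℓ - C a.f : F[X]))] :
    ∃ y : Pic0 K F, ℓ • y = 0 ∧ weilPair ℓ x y ≠ 1 := by
  haveI : NeZero ℓ := ⟨hℓ.ne_zero⟩
  haveI : NeZero (ℓ : K) := ⟨by exact_mod_cast hℓ.ne_zero⟩
  have hne : (X ^ ℓ - C a.f : F[X]) ≠ 0 := X_pow_sub_C_ne_zero hℓ.pos a.f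
  haveI : FiniteDimensional F (AdjoinRoot (X ^ ℓ - C a.f : F[X])) :=
    (AdjoinRoot.powerBasis hne).finite
  -- the cover is a function field
  have hinj : Function.Injective (algebraMap F (AdjoinRoot (X ^ ℓ - C a.f : F[X]))) :=
    (algebraMap F (AdjoinRoot (X ^ ℓ - C a.f : F[X]))).injective
  have hx' : Transcendental K (algebraMap F (AdjoinRoot (X ^ ℓ - C a.f : F[X])) x₀) :=
    (transcendental_algebraMap_iff hinj).2 hx₀
  haveI := finiteDimensional_adjoin_map (K := K)
    (F' := AdjoinRoot (X ^ ℓ - C a.f : F[X])) x₀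
  haveI : WeilCurve K (AdjoinRoot (X ^ ℓ - C a.f : F[X])) :=
    weilCurve_of_finiteDimensional _ hx'
  haveI : CharZero K⟮algebraMap F (AdjoinRoot (X ^ ℓ - C a.f : F[X])) x₀⟯ :=
    charZero_of_injective_algebraMap (algebraMap K _).injective
  haveI : Infinite (Place K (AdjoinRoot (X ^ ℓ - C a.f : F[X]))) :=
    (RRgen.Canonical.isCurveOfGenus_genusOf K hx').infinite_places
  -- a primitive root of unity and the automorphism
  obtain ⟨ζ, hζ⟩ := HasEnoughRootsOfUnity.exists_primitiveRoot K ℓ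
  have hζF : IsPrimitiveRoot (algebraMap K F ζ) ℓ :=
    hζ.map_of_injective (algebraMap K F).injective
  set σ := autAdjoinRootXPowSubC ℓ a.f hζF.toRootsOfUnity with hσdef
  have hσ : σ (AdjoinRoot.root (X ^ ℓ - C a.f : F[X])) =
      algebraMap K (AdjoinRoot (X ^ ℓ - C a.f : F[X])) ζ *
        AdjoinRoot.root (X ^ ℓ - C a.f : F[X]) := by
    rw [hσdef, autAdjoinRootXPowSubC_root, Algebra.smul_def,
      IsScalarTower.algebraMap_apply K F (AdjoinRoot (X ^ ℓ - C a.f : F[X]))]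
    rfl
  have hu : (AdjoinRoot.root (X ^ ℓ - C a.f : F[X])) ^ ℓ =
      algebraMap F (AdjoinRoot (X ^ ℓ - C a.f : F[X])) a.f := by
    rw [root_X_pow_sub_C_pow, AdjoinRoot.algebraMap_eq]
  obtain ⟨y, hy, hxy⟩ := exists_weilPair_eq_of_cover hℓ.pos a _ hu σ ζ hσ
    (hU1 _ _ hx' inferInstance)
  exact ⟨y, hy, by rw [hxy]; exact hζ.ne_one hℓ.one_lt⟩

/-- **(W2) non-degeneracy of the Weil pairing at prime level**, given (U1) at `ℓ` -/
theorem exists_weilPair_ne_one (x₀ : F) [FiniteDimensional K⟮x₀⟯ F]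
    (hx₀ : Transcendental K x₀) [WeilCurve K F] {ℓ : ℕ} (hℓ : ℓ.Prime)
    (hU1 : DivisibleAt.{u, v} K ℓ) {x : Pic0 K F} (hx : ℓ • x = 0) (hx0 : x ≠ 0) :
    ∃ y : Pic0 K F, ℓ • y = 0 ∧ weilPair ℓ x y ≠ 1 := by
  obtain ⟨a⟩ := Rep.nonempty (K := K) (F := F) hx
  haveI : Fact (Irreducible (X ^ ℓ - C a.f : F[X])) :=
    ⟨X_pow_sub_C_irreducible_of_prime hℓ (a.not_pow hℓ.pos hx0)⟩
  exact exists_weilPair_ne_one_aux x₀ hx₀ hℓ hU1 a

end Kummer

end Fermat.Agent.S15lib.Weil
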