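/-
S15lib / Weil / Final  (helper9)

The Weil pairing on `J₀(N)(ℚ̄)`: summary of the API for the consumers (ORD, Mt1).

* `weilPair m x y : ℚ̄` for `x y : JZero N`;
* (W1) `weilPair_eq` (Weil's formula for disjoint representatives), `weilPair_add_left`,
  `weilPair_add_right`, `weilPair_swap`, `weilPair_pow`, `weilPair_ne_zero`
  (all in `S15lib/Weil/Pairing.lean`, valid for `JZero N` through `weilCurve_FB`);
* `weilPair_galois` (Galois equivariance), (W3) `weilPair_TJ`, `weilPair_heckeStd`
  (`S15lib/Weil/Modular.lean`);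
* (W2) `exists_weilPair_ne_one_JZero` below, given (U1) at `ℓ`.
-/
import Mathlib
import Fermat.Agent.S15lib.Weil.Modular
import Fermat.Agent.S15lib.Weil.NonDeg

set_option autoImplicit false
set_option linter.unusedSectionVars false
set_option linter.style.haveILetI false

noncomputable section

namespace Fermat.Agent.S15lib.Weil

open AlgebraicCurve ModularCurve Fermat.Agent.S37lib.HeckeInst

local notation "Qb" => AlgebraicClosure ℚ

/-- **(W2)** non-degeneracy of the Weil pairing on `J₀(N)[ℓ]`, `ℓ` prime, given (U1) at `ℓ` -/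
theorem exists_weilPair_ne_one_JZero (N : ℕ) [NeZero N] {ℓ : ℕ} (hℓ : ℓ.Prime)
    (hU1 : DivisibleAt.{0, 0} Qb ℓ) {x : JZero N} (hx : ℓ • x = 0) (hx0 : x ≠ 0) :
    ∃ y : JZero N, ℓ • y = 0 ∧ weilPair ℓ x y ≠ 1 :=
  exists_weilPair_ne_one (jB N) (transcendental_jB N) hℓ hU1 hx hx0

end Fermat.Agent.S15lib.Weil
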