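/-
S15lib / Weil / BetaNormT  (helper9)

The analytic norm formula along `β` for a prime `ℓ ∤ N`:
  `toMer (ΦBar N e (Norm_β y)) = ∏ x : P¹(𝔽_ℓ), (ΦBar (N ℓ) e y) ∘ (c₀ x · heckeRep ℓ x)`,
and its consequence `Norm_β (α f) = Norm_α (β f)` in `FBar N` (`norm_beta_alpha_eq`): the
correspondence `T_ℓ` and its transpose induce the same map on functions.

The transversal is `A x = c₀ x · heckeRep ℓ x = (1 0; 0 ℓ) · g x` with `c₀ x, g x ∈ Γ₀(N)`;
the cocycle of `S16lib.LH.tCoc_rel`, conjugated by `c₀`, has values in `Γ₀(N ℓ)`.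
-/
import Mathlib
import Fermat.Agent.S29lib.H.BetaNorm
import Fermat.Agent.S29lib.H.HeckeNorm

set_option autoImplicit false
set_option linter.style.haveILetI false
set_option linter.unusedSectionVars false

noncomputable section

namespace Fermat.Agent.S15lib.Weil.BetaT

open UpperHalfPlane Polynomial Matrix.SpecialLinearGroup Fermat.Agent.ProgramR Module
  CongruenceSubgroup ModularForm ModularCurve
open Fermat.Agent.ProgramR.BarField Fermat.Agent.ProgramR.QExp Fermat.Agent.ProgramR.LevelOne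
open Fermat.Agent.S16lib.LH Fermat.Agent.S29lib.H
open P2MW.S_ModularForm_heckeT_slash_eq_self_of_mem_Gamma0.ModularForm.HeckeSlashInvariance
open scoped MatrixGroups

variable {N ℓ : ℕ} [NeZero N] [Fact ℓ.Prime]

/-- equality in `GL(2,ℝ)` from equality of the entries -/
theorem gl_ext {A B : GL (Fin 2) ℝ}
    (h : ∀ i j, (A : Matrix (Fin 2) (Fin 2) ℝ) i j = (B : Matrix (Fin 2) (Fin 2) ℝ) i j) :
    A = B :=
  Units.ext (Matrix.ext h)

/-- the representatives: `c₀ · heckeRep x = (1 0; 0 ℓ) · g` with `c₀, g ∈ Γ₀(N)` -/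
theorem exists_reps (hℓN : ¬ ℓ ∣ N) (x : OnePoint (ZMod ℓ)) :
    ∃ c₀ g : Gamma0 N,
      (mapGL ℝ ((c₀ : Gamma0 N) : SL(2, ℤ)) : GL (Fin 2) ℝ) * heckeRep ℓ x =
        heckeMatrix ℓ 0 * (mapGL ℝ ((g : Gamma0 N) : SL(2, ℤ)) : GL (Fin 2) ℝ) := by
  have hℓ : ℓ ≠ 0 := (Fact.out : ℓ.Prime).ne_zero
  induction x using OnePoint.rec with
  | infty =>
    -- Bezout: `u ℓ - v N = 1`
    have hcop : IsCoprime (ℓ : ℤ) (N : ℤ) :=
      Nat.isCoprime_iff_coprime.mpr ((Nat.Prime.coprime_iff_not_dvd Fact.out).mpr hℓN)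
    obtain ⟨u, w, huw⟩ := hcop
    -- `u * ℓ + w * N = 1`; put `v = -w`
    let c₀ : SL(2, ℤ) := ⟨!![1, -w; (N : ℤ), u * ℓ], by
      rw [Matrix.det_fin_two_of]; linear_combination huw⟩
    let g : SL(2, ℤ) := ⟨!![(ℓ : ℤ), -w; (N : ℤ), u], by
      rw [Matrix.det_fin_two_of]; linear_combination huw⟩
    have hc₀ : c₀ ∈ Gamma0 N := by
      rw [Gamma0_mem]
      simp [c₀]
    have hg : g ∈ Gamma0 N := by
      rw [Gamma0_mem]
      simp [g]
    refine ⟨⟨c₀, hc₀⟩, ⟨g, hg⟩, ?_⟩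
    apply gl_ext
    intro i j
    rw [heckeRep_infty]
    simp only [Matrix.GeneralLinearGroup.coe_mul, Matrix.mul_apply, Fin.sum_univ_two,
      val_heckeDiagMatrix hℓ, val_heckeMatrix hℓ, mapGL_apply]
    fin_cases i <;> fin_cases j <;> simp [c₀, g] <;> ring
  | coe j =>
    refine ⟨1, ⟨ModularGroup.T ^ (j.val : ℤ), Subgroup.zpow_mem _ (T_mem_Gamma0 N) _⟩, ?_⟩
    apply gl_ext
    intro i k
    rw [heckeRep_coe]
    simp only [Matrix.GeneralLinearGroup.coe_mul, Matrix.mul_apply, Fin.sum_univ_two,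
      val_heckeMatrix hℓ, mapGL_apply, OneMemClass.coe_one, ModularGroup.coe_T_zpow]
    fin_cases i <;> fin_cases k <;> simp

section Transversal

variable (hℓN : ¬ ℓ ∣ N)

/-- the element `c₀ x ∈ Γ₀(N)` -/
def c0 (x : OnePoint (ZMod ℓ)) : Gamma0 N := (exists_reps hℓN x).choose

/-- the element `g x ∈ Γ₀(N)` -/
def gR (x : OnePoint (ZMod ℓ)) : Gamma0 N := (exists_reps hℓN x).choose_spec.choose

theorem c0_mul_heckeRep (x : OnePoint (ZMod ℓ)) :
    (mapGL ℝ ((c0 hℓN x : Gamma0 N) : SL(2, ℤ)) : GL (Fin 2) ℝ) * heckeRep ℓ x =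
      heckeMatrix ℓ 0 * (mapGL ℝ ((gR hℓN x : Gamma0 N) : SL(2, ℤ)) : GL (Fin 2) ℝ) :=
  (exists_reps hℓN x).choose_spec.choose_spec

/-- the representatives of the transversal of `β` -/
def repA (x : OnePoint (ZMod ℓ)) : GL (Fin 2) ℝ :=
  (mapGL ℝ ((c0 hℓN x : Gamma0 N) : SL(2, ℤ)) : GL (Fin 2) ℝ) * heckeRep ℓ x

theorem repA_eq (x : OnePoint (ZMod ℓ)) :
    repA hℓN x =
      heckeMatrix ℓ 0 * (mapGL ℝ ((gR hℓN x : Gamma0 N) : SL(2, ℤ)) : GL (Fin 2) ℝ) :=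
  c0_mul_heckeRep hℓN x

theorem isIntMat_mul {A B : GL (Fin 2) ℝ} (hA : IsIntMat A) (hB : IsIntMat B) :
    IsIntMat (A * B) := by
  obtain ⟨M, hM, hMd⟩ := hA
  obtain ⟨M', hM', hMd'⟩ := hB
  refine ⟨M * M', ?_, ?_⟩
  · rw [Matrix.GeneralLinearGroup.coe_mul, hM, hM']
    exact (Matrix.map_mul (f := Int.castRingHom ℝ)).symm
  · rw [Matrix.det_mul]
    exact mul_pos hMd hMd'

theorem isIntMat_repA (x : OnePoint (ZMod ℓ)) : IsIntMat (repA hℓN x) :=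
  haveI : NeZero ℓ := ⟨(Fact.out : ℓ.Prime).ne_zero⟩
  isIntMat_mul (isIntMat_mapGL _) (isIntMat_heckeRep ℓ x)

/-- the cocycle, with values in `Γ₀(N)` -/
def cocN (γ : Gamma0 N) (x : OnePoint (ZMod ℓ)) : Gamma0 N :=
  c0 hℓN x * tCoc hℓN γ x * (c0 hℓN (tPerm ℓ γ x))⁻¹

theorem repA_rel (γ : Gamma0 N) (x : OnePoint (ZMod ℓ)) :
    repA hℓN x * (mapGL ℝ (γ : SL(2, ℤ)) : GL (Fin 2) ℝ) =
      (mapGL ℝ ((cocN hℓN γ x : Gamma0 N) : SL(2, ℤ)) : GL (Fin 2) ℝ) *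
        repA hℓN (tPerm ℓ γ x) := by
  rw [repA, repA, mul_assoc, tCoc_rel hℓN γ x, cocN]
  simp only [Subgroup.coe_mul, Subgroup.coe_inv, map_mul, map_inv]
  group

/-- the cocycle has values in `Γ₀(N ℓ)` -/
theorem cocN_mem (γ : Gamma0 N) (x : OnePoint (ZMod ℓ)) :
    ((cocN hℓN γ x : Gamma0 N) : SL(2, ℤ)) ∈ Gamma0 (N * ℓ) := by
  have hℓ : ℓ ≠ 0 := (Fact.out : ℓ.Prime).ne_zero
  -- `C * D' = D' * H` with `H = g_x γ g_{σ x}⁻¹ ∈ Γ₀(N)`
  set h : Gamma0 N := gR hℓN x * γ * (gR hℓN (tPerm ℓ γ x))⁻¹ with hh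
  have key : (mapGL ℝ ((cocN hℓN γ x : Gamma0 N) : SL(2, ℤ)) : GL (Fin 2) ℝ) * heckeMatrix ℓ 0 =
      heckeMatrix ℓ 0 * (mapGL ℝ ((h : Gamma0 N) : SL(2, ℤ)) : GL (Fin 2) ℝ) := by
    have h1 := repA_rel hℓN γ x
    rw [repA_eq, repA_eq] at h1
    -- `D' G Γ = C D' G'`
    have h2 : (mapGL ℝ ((cocN hℓN γ x : Gamma0 N) : SL(2, ℤ)) : GL (Fin 2) ℝ) * heckeMatrix ℓ 0 =
        heckeMatrix ℓ 0 * (mapGL ℝ ((gR hℓN x : Gamma0 N) : SL(2, ℤ)) : GL (Fin 2) ℝ) *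
          (mapGL ℝ (γ : SL(2, ℤ)) : GL (Fin 2) ℝ) *
          (mapGL ℝ ((gR hℓN (tPerm ℓ γ x) : Gamma0 N) : SL(2, ℤ)) : GL (Fin 2) ℝ)⁻¹ := by
      rw [h1]
      group
    rw [h2, hh]
    simp only [Subgroup.coe_mul, Subgroup.coe_inv, map_mul, map_inv]
    group
  have h10 := congrFun (congrFun (congrArg
    (fun M : GL (Fin 2) ℝ => (M : Matrix (Fin 2) (Fin 2) ℝ)) key) 1) 0
  simp only [Matrix.GeneralLinearGroup.coe_mul, Matrix.mul_apply, Fin.sum_univ_two,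
    val_heckeMatrix hℓ, mapGL_apply] at h10
  simp at h10
  have h10' : ((cocN hℓN γ x : Gamma0 N) : SL(2, ℤ)) 1 0 = (ℓ : ℤ) * ((h : Gamma0 N) : SL(2, ℤ)) 1 0 := by
    exact_mod_cast h10
  have hN : (N : ℤ) ∣ ((h : Gamma0 N) : SL(2, ℤ)) 1 0 :=
    (ZMod.intCast_zmod_eq_zero_iff_dvd _ _).mp (Gamma0_mem.mp h.2)
  rw [Gamma0_mem, h10', ZMod.intCast_zmod_eq_zero_iff_dvd]
  obtain ⟨k, hk⟩ := hN
  exact ⟨k, by rw [hk]; push_cast; ring⟩

/-- the transversal `c₀ x · heckeRep ℓ x`, `x ∈ P¹(𝔽_ℓ)`, for `β`, `ℓ ∤ N` -/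
def betaTransversalT : Transversal (Gamma0 N) (Gamma0 (N * ℓ)) (OnePoint (ZMod ℓ)) where
  A := repA hℓN
  isInt := isIntMat_repA hℓN
  σ := tPerm ℓ
  c γ x := ⟨cocN hℓN γ x, cocN_mem hℓN γ x⟩
  rel := repA_rel hℓN

@[simp] theorem betaTransversalT_A (x : OnePoint (ZMod ℓ)) :
    (betaTransversalT hℓN).A x = repA hℓN x := rfl

end Transversal

section Norm

variable (hℓN : ¬ ℓ ∣ N)

theorem hF1_betaT (x : OnePoint (ZMod ℓ)) (a : WH0 (Gamma0 N)) :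
    Hol.comp ((betaTransversalT hℓN).A x) ((betaTransversalT hℓN).isInt x).det_pos
      (WH0.toHol (Gamma0 (N * ℓ)) (beta₀ N ℓ a)) = WH0.toHol (Gamma0 N) a := by
  apply Hol.ext
  intro z
  show a.1 (heckeDiagMatrix ℓ • (repA hℓN x • z)) = a.1 z
  rw [repA_eq, mul_smul, heckeDiag_smul_heckeMatrix_smul]
  simp only [Nat.cast_zero, zpow_zero, one_smul]
  exact a.2.smul_eq _ (gR hℓN x).2 z

theorem jInv_repA_smul (x : OnePoint (ZMod ℓ)) (z : ℍ) :
    jInv (repA hℓN x • z) = jInv (heckeRep ℓ x • z) := by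
  rw [repA, mul_smul]
  exact jInv_smul _ _

variable {L : Type*} [Field L] [Algebra ℚ L] (e : L →+* ℂ)

theorem emb_betaT_jBar (x : OnePoint (ZMod ℓ)) :
    (betaTransversalT hℓN).emb x (ΦBar (N * ℓ) e (jBar L (N * ℓ))) =
      algebraMap Hol Mer (Hol.comp (repA hℓN x) (isIntMat_repA hℓN x).det_pos
        ⟨jInv, mdifferentiable_jInv⟩) := by
  rw [ΦBar_jBar, Transversal.emb_algebraMap]
  rfl

/-- the `ℓ + 1` functions `j ∘ heckeRep ℓ x` are distinct -/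
theorem heckeRep_jInv_injective (x x' : OnePoint (ZMod ℓ))
    (H : ∀ z : ℍ, jInv (heckeRep ℓ x • z) = jInv (heckeRep ℓ x' • z)) : x = x' := by
  have hℓ : ℓ ≠ 0 := (Fact.out : ℓ.Prime).ne_zero
  -- the case `∞` against a finite point
  have key : ∀ n : ZMod ℓ,
      (∀ z : ℍ, jInv (heckeDiagMatrix ℓ • z) = jInv (heckeMatrix ℓ n.val • z)) → False := by
    intro n Hn
    have H' : ∀ z : ℍ, jInv (levelMat ℓ • ((1 : SL(2, ℤ))⁻¹ • z)) =
        jInv (levelMat ℓ • ((wInv (n.val : ℤ))⁻¹ • z)) := by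
      intro z
      rw [wInv_inv, levelMat_smul_wMat, jInv_smul, inv_one, one_smul, ← Hn z]
      congr 1
      apply UpperHalfPlane.ext
      rw [coe_levelMat_smul, coe_heckeDiagMatrix_smul hℓ]
    have h1 := inv_mul_mem_Gamma0_of_forall_jInv_eq ℓ _ _ H'
    rw [inv_one, one_mul, Gamma0_mem] at h1
    simp only [wInv, Matrix.SpecialLinearGroup.coe_mk, Matrix.of_apply, Matrix.cons_val',
      Matrix.cons_val_zero, Matrix.cons_val_one, Matrix.empty_val', Matrix.cons_val_fin_one]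
      at h1
    rw [ZMod.intCast_zmod_eq_zero_iff_dvd] at h1
    have h2 : (ℓ : ℤ) ∣ 1 := by simpa using h1
    have h3 : ℓ ∣ 1 := by exact_mod_cast h2
    exact (Fact.out : ℓ.Prime).one_lt.ne' (Nat.dvd_one.1 h3)
  induction x using OnePoint.rec with
  | infty =>
    induction x' using OnePoint.rec with
    | infty => rfl
    | coe n => exact (key n fun z => by simpa using H z).elim
  | coe m =>
    induction x' using OnePoint.rec with
    | infty => exact (key m fun z => by simpa using (H z).symm).elim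
    | coe n =>
      congr 1
      exact heckeMatrix_jInv_injective ℓ m n fun z => by simpa using H z

theorem hinj_betaT :
    Function.Injective (fun x => ((betaTransversalT hℓN).emb x).comp (ΦBar (N * ℓ) e)) := by
  intro x x' h
  have h1 := DFunLike.congr_fun h (jBar L (N * ℓ))
  simp only [RingHom.comp_apply] at h1
  rw [emb_betaT_jBar, emb_betaT_jBar] at h1
  have h2 := IsFractionRing.injective Hol Mer h1
  apply heckeRep_jInv_injective
  intro z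
  have := congrArg (fun F : Hol => (F : ℍ → ℂ) z) h2
  rw [← jInv_repA_smul hℓN, ← jInv_repA_smul hℓN]
  simpa using this

/-- **The analytic norm formula along `β`, `ℓ ∤ N`.** -/
theorem toMer_norm_betaT (y : FBar L (N * ℓ)) :
    toMer (Gamma0 N) (ΦBar N e
      (@Algebra.norm (FBar L N) (FBar L (N * ℓ)) _ _ (heckeBetaBar L N ℓ).toRingHom.toAlgebra y)) =
      ∏ x : OnePoint (ZMod ℓ), merComp (repA hℓN x) (isIntMat_repA hℓN x).det_pos
        (toMer (Gamma0 (N * ℓ)) (ΦBar (N * ℓ) e y)) :=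
  (betaTransversalT hℓN).toMer_norm_eq_prod e OnePoint.infty (heckeBetaBar L N ℓ) (beta₀ N ℓ)
    (betaAn N ℓ) (betaAn_algebraMap N ℓ) (hF1_betaT hℓN) (betaAn_ΦBar N ℓ e) (betaAn_const N ℓ)
    (hinj_betaT hℓN e) y

end Norm

/-- **Analytic norm formula for the transposed correspondence, `ℓ ∤ N`**:
`Norm_β (α f) = ∏_x f ∘ heckeRep ℓ x` -/
theorem toMer_norm_beta_alphaT (hℓN : ¬ ℓ ∣ N) {L : Type*} [Field L] [Algebra ℚ L] (e : L →+* ℂ)
    (f : FBar L N) :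
    toMer (Gamma0 N) (ΦBar N e
      (@Algebra.norm (FBar L N) (FBar L (N * ℓ)) _ _
        (heckeBetaBar L N ℓ).toRingHom.toAlgebra (heckeAlphaBar L N ℓ f))) =
      ∏ x : OnePoint (ZMod ℓ), merComp (heckeRep ℓ x) (isIntMat_heckeRep ℓ x).det_pos
        (toMer (Gamma0 N) (ΦBar N e f)) := by
  rw [toMer_norm_betaT hℓN e (heckeAlphaBar L N ℓ f)]
  refine Finset.prod_congr rfl fun x _ => ?_
  rw [← alphaAn_ΦBar, toMer_alphaAn]
  rw [merComp_eq_of_eq (isIntMat_repA hℓN x).det_pos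
    (det_pos_mul (isIntMat_mapGL _).det_pos (isIntMat_heckeRep ℓ x).det_pos) rfl,
    ← merComp_comp (isIntMat_mapGL _).det_pos (isIntMat_heckeRep ℓ x).det_pos,
    merComp_toMer_of_mem (Gamma0 N) (c0 hℓN x).2]

/-- **`T_ℓ` and its transpose agree on functions**: `Norm_β (α f) = Norm_α (β f)` in `FBar N`,
for a prime `ℓ ∤ N` -/
theorem norm_beta_alpha_eq (hℓN : ¬ ℓ ∣ N) {L : Type*} [Field L] [Algebra ℚ L] (e : L →+* ℂ)
    (f : FBar L N) :
    @Algebra.norm (FBar L N) (FBar L (N * ℓ)) _ _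
        (heckeBetaBar L N ℓ).toRingHom.toAlgebra (heckeAlphaBar L N ℓ f) =
      @Algebra.norm (FBar L N) (FBar L (N * ℓ)) _ _
        (heckeAlphaBar L N ℓ).toRingHom.toAlgebra (heckeBetaBar L N ℓ f) := by
  apply (ΦBar N e).injective
  apply toMer_injective (Gamma0 N)
  rw [toMer_norm_beta_alphaT hℓN e f]
  exact (toMer_norm_alpha_beta e hℓN f).symm

end Fermat.Agent.S15lib.Weil.BetaT
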