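/-
S15lib / Weil / Transpose  (helper9)

**`T_ℓ` is self-adjoint for the Weil pairing on torsion** (`ℓ ∤ N`).

For a prime `ℓ ∤ N` the correspondence `T_ℓ = α_* β^*` (`S29lib.H.heckeStd`) and its transpose
`β_* α^*` (`S29lib.H.heckeTr`) induce the same map on functions:
`N_α(β f) = N_β(α f)` (`BetaT.norm_beta_alpha_eq`).  Hence on an `m`-torsion class `[D]`,
`m D = div f`, one has `m · T D = div(N_α(β f)) = div(N_β(α f)) = m · Tᵗ D`, so `T D = Tᵗ D`
as divisors.  Consequently `e_m(T x, y) = e_m(x, T y)`.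
-/
import Mathlib
import Fermat.Agent.S15lib.Weil.Modular
import Fermat.Agent.S15lib.Weil.BetaNormT

set_option autoImplicit false
set_option linter.unusedSectionVars false
set_option linter.style.haveILetI false

noncomputable section

namespace Fermat.Agent.S15lib.Weil

open AlgebraicCurve ModularCurve Fermat.Agent.S37lib.HeckeInst

local notation "Qb" => AlgebraicClosure ℚ

variable (N : ℕ) [NeZero N]

/-- **the transposed Hecke correspondence agrees with `T_ℓ` on torsion**, `ℓ ∤ N` -/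
theorem heckeTr_eq_heckeStd_of_torsion (ℓ : ℕ) [Fact ℓ.Prime] (hℓN : ¬ ℓ ∣ N) {m : ℕ}
    (hm : 0 < m) {y : JZero N} (hy : m • y = 0) :
    haveI : NeZero ℓ := ⟨(Fact.out : ℓ.Prime).ne_zero⟩
    Fermat.Agent.S29lib.H.heckeTr N ℓ y = Fermat.Agent.S29lib.H.heckeStd N ℓ y := by
  haveI : NeZero ℓ := ⟨(Fact.out : ℓ.Prime).ne_zero⟩
  haveI := hasPrincipalDivisors_FB (N * ℓ)
  obtain ⟨a⟩ := Rep.nonempty (K := Qb) (F := FB N) hy
  let e : Qb →+* ℂ := Fermat.Agent.ProgramR.BarField.qbarEmb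
  let a1 := Rep.corr (heckeBetaBar Qb N ℓ) (heckeAlphaBar Qb N ℓ) (heckeBetaBarIntegral N ℓ)
    (heckeAlphaBarIntegral N ℓ) (fundamentalIdentityAlong_beta N ℓ) (finiteAlong_alpha N ℓ)
    (normFormulaAlong_alpha N ℓ) a
  let a2 := Rep.corr (heckeAlphaBar Qb N ℓ) (heckeBetaBar Qb N ℓ) (heckeAlphaBarIntegral N ℓ)
    (heckeBetaBarIntegral N ℓ) (fundamentalIdentityAlong_alpha N ℓ) (finiteAlong_beta N ℓ)
    (normFormulaAlong_beta N ℓ) a
  have hf : a2.f = a1.f := BetaT.norm_beta_alpha_eq hℓN e a.f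
  have hD : a2.D = a1.D := by
    have h1 := a1.div_eq
    have h2 := a2.div_eq
    rw [hf, h1] at h2
    apply Finsupp.ext
    intro v
    have h3 := DFunLike.congr_fun h2 v
    simp only [Finsupp.smul_apply, nsmul_eq_mul] at h3
    have hm' : (m : ℤ) ≠ 0 := by exact_mod_cast hm.ne'
    exact (mul_left_cancel₀ hm' h3).symm
  have h1 := a1.cls
  have h2 := a2.cls
  have h12 : (Pic0.mk ⟨a2.D, a2.deg⟩ : JZero N) = Pic0.mk ⟨a1.D, a1.deg⟩ :=
    congrArg Pic0.mk (Subtype.ext hD)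
  exact h2.symm.trans (h12.trans h1)

/-- **`heckeTr = TJ` on torsion** at primes not dividing the level (the shape of helper7's
`Desc.HeckeTrStmt`) -/
theorem heckeTr_eq_TJ_of_torsion (q : Nat.Primes) (hq : ¬ (q : ℕ) ∣ N) {m : ℕ} (hm : 0 < m)
    (y : JZero N) (hy : m • y = 0) :
    (haveI : NeZero (q : ℕ) := ⟨q.2.ne_zero⟩; Fermat.Agent.S29lib.H.heckeTr N q) y =
      Fermat.Agent.S29lib.H.TJ N q y := by
  haveI : NeZero (q : ℕ) := ⟨q.2.ne_zero⟩
  haveI : Fact (q : ℕ).Prime := ⟨q.2⟩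
  rw [Fermat.Agent.S29lib.H.TJ_of_not_dvd N hq]
  exact heckeTr_eq_heckeStd_of_torsion N q hq hm hy

/-- **(W3), final form: `T_q` is self-adjoint for the Weil pairing**, `q ∤ N` -/
theorem weilPair_TJ_self (q : Nat.Primes) (hq : ¬ (q : ℕ) ∣ N) {m : ℕ} (hm : 0 < m)
    {x y : JZero N} (hx : m • x = 0) (hy : m • y = 0) :
    weilPair m (Fermat.Agent.S29lib.H.TJ N q x) y =
      weilPair m x (Fermat.Agent.S29lib.H.TJ N q y) := by
  rw [weilPair_TJ N q hq hx hy, heckeTr_eq_TJ_of_torsion N q hq hm y hy]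

end Fermat.Agent.S15lib.Weil
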