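/-
S15lib / Weil / P1  (helper9)

The projective line: a field `E` generated over an algebraically closed field `K` of
characteristic zero by one transcendental element `t`.  We list the places of `E` (one place
`finPlace a` for each `a : K`, the zero of `t - a`, and one place `infPlace`, the pole of `t`),
write every non-zero function as a constant times a product of linear factors, and deduce
Weil reciprocity for the pair `(t, h)`.
-/
import Mathlib
import Fermat.Agent.S15lib.Weil.Eval
import Fermat.Agent.S18lib.Tame.ZeroPole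

set_option autoImplicit false
set_option linter.style.haveILetI false
set_option linter.unusedSectionVars false

noncomputable section

namespace Fermat.Agent.S15lib.Weil

open AlgebraicCurve IntermediateField Fermat.Agent.ProgramR Fermat.Agent.S18lib
open Fermat.Agent.S18lib.Tame

/-- over an algebraically closed constant field all places are rational -/
theorem ratPlaces_of_finiteDimensional {K F : Type*} [Field K] [Field F] [Algebra K F]
    [IsAlgClosed K] (x : F) [FiniteDimensional K⟮x⟯ F] : RatPlaces K F :=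
  ⟨fun v => FF.deg_eq_one x v⟩

/-- a finite sum of positive integers equal to one has exactly one term -/
theorem exists_unique_of_sum_eq_one {ι : Type*} (S : Finset ι) (f : ι → ℤ)
    (hpos : ∀ i ∈ S, 0 < f i) (hsum : ∑ i ∈ S, f i = 1) :
    ∃ i ∈ S, f i = 1 ∧ ∀ j ∈ S, j = i := by
  classical
  have hne : S.Nonempty := by
    rw [Finset.nonempty_iff_ne_empty]
    rintro rfl
    simp at hsum
  obtain ⟨i, hi⟩ := hne
  have hsplit := Finset.add_sum_erase S f hi
  have hrest : ∀ j ∈ S.erase i, 0 ≤ f j := fun j hj => (hpos j (Finset.mem_of_mem_erase hj)).le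
  have hrest0 : 0 ≤ ∑ j ∈ S.erase i, f j := Finset.sum_nonneg hrest
  have hi1 := hpos i hi
  refine ⟨i, hi, by omega, ?_⟩
  intro j hj
  by_contra hji
  have hj' : j ∈ S.erase i := Finset.mem_erase.2 ⟨hji, hj⟩
  have := Finset.single_le_sum hrest hj'
  have := hpos j hj
  omega

/-- `t` generates `E` over `K` as a field and is transcendental: `E` is the function field of
the projective line with coordinate `t` -/
structure IsP1Gen (K : Type*) {E : Type*} [Field K] [Field E] [Algebra K E] (t : E) : Prop where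
  transc : Transcendental K t
  top : K⟮t⟯ = ⊤

namespace IsP1Gen

variable {K E : Type*} [Field K] [Field E] [Algebra K E] {t : E} (ht : IsP1Gen K t)

include ht in
theorem finrank_eq_one : Module.finrank K⟮t⟯ E = 1 :=
  IntermediateField.finrank_eq_one_iff_eq_top.2 ht.top

include ht in
theorem finiteDimensional : FiniteDimensional K⟮t⟯ E :=
  Module.finite_of_finrank_pos (by rw [ht.finrank_eq_one]; exact Nat.one_pos)

include ht in
theorem ne_algebraMap (a : K) : t ≠ algebraMap K E a := by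
  intro h
  exact ht.transc (h ▸ isAlgebraic_algebraMap a)

include ht in
theorem sub_const_ne_zero (a : K) : t - algebraMap K E a ≠ 0 :=
  _root_.sub_ne_zero.2 (ht.ne_algebraMap a)

include ht in
theorem gen_ne_zero : t ≠ 0 := by
  have := ht.ne_algebraMap 0
  rwa [map_zero] at this

variable [IsAlgClosed K] [CharZero K]

include ht in
theorem exists_unique_zero (a : K) :
    ∃ v : Place K E, v.ord (t - algebraMap K E a) = 1 ∧
      ∀ w : Place K E, 0 < w.ord (t - algebraMap K E a) → w = v := by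
  haveI := ht.finiteDimensional
  have hsum := FF.sum_fibre_ord t ht.transc a (FF.finite_fibre t ht.transc a).toFinset
    (fun v => by rw [Set.Finite.mem_toFinset]; rfl)
  rw [ht.finrank_eq_one, Nat.cast_one] at hsum
  obtain ⟨v, -, hv1, hv2⟩ := exists_unique_of_sum_eq_one _ _
    (fun v hv => by rw [Set.Finite.mem_toFinset] at hv; exact hv) hsum
  refine ⟨v, hv1, fun w hw => hv2 w ?_⟩
  rw [Set.Finite.mem_toFinset]
  exact hw

include ht in
theorem exists_unique_pole :
    ∃ v : Place K E, v.ord t = -1 ∧ ∀ w : Place K E, w.ord t < 0 → w = v := by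
  haveI := ht.finiteDimensional
  have hsum := FF.sum_poles_ord t ht.transc (FF.finite_poles t ht.transc).toFinset
    (fun v => by rw [Set.Finite.mem_toFinset]; rfl)
  rw [ht.finrank_eq_one, Nat.cast_one] at hsum
  obtain ⟨v, -, hv1, hv2⟩ := exists_unique_of_sum_eq_one _ (fun v : Place K E => -v.ord t)
    (fun v hv => by
      rw [Set.Finite.mem_toFinset] at hv
      have : v.ord t < 0 := hv
      omega) hsum
  refine ⟨v, by omega, fun w hw => hv2 w ?_⟩
  rw [Set.Finite.mem_toFinset]
  exact hw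

/-- the zero of `t - a` -/
def finPlace (a : K) : Place K E := (ht.exists_unique_zero a).choose

/-- the pole of `t` -/
def infPlace : Place K E := ht.exists_unique_pole.choose

theorem ord_finPlace_sub (a : K) : (ht.finPlace a).ord (t - algebraMap K E a) = 1 :=
  (ht.exists_unique_zero a).choose_spec.1

theorem eq_finPlace {a : K} {w : Place K E} (hw : 0 < w.ord (t - algebraMap K E a)) :
    w = ht.finPlace a :=
  (ht.exists_unique_zero a).choose_spec.2 w hw

theorem ord_infPlace : ht.infPlace.ord t = -1 := ht.exists_unique_pole.choose_spec.1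

theorem eq_infPlace {w : Place K E} (hw : w.ord t < 0) : w = ht.infPlace :=
  ht.exists_unique_pole.choose_spec.2 w hw

theorem ord_infPlace_sub (a : K) : ht.infPlace.ord (t - algebraMap K E a) = -1 := by
  rw [ord_sub_const_of_neg _ a (by rw [ht.ord_infPlace]; omega), ht.ord_infPlace]

theorem finPlace_ne_infPlace (a : K) : ht.finPlace a ≠ ht.infPlace := by
  intro h
  have h1 := ht.ord_finPlace_sub a
  rw [h, ht.ord_infPlace_sub] at h1
  omega

theorem ord_finPlace_nonneg (a : K) : 0 ≤ (ht.finPlace a).ord t := by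
  by_contra h
  push Not at h
  exact ht.finPlace_ne_infPlace a (ht.eq_infPlace h)

theorem ord_finPlace_sub_of_ne {a b : K} (hab : a ≠ b) :
    (ht.finPlace b).ord (t - algebraMap K E a) = 0 := by
  have hc : algebraMap K E (b - a) ≠ 0 := (map_ne_zero _).2 (_root_.sub_ne_zero.2 hab.symm)
  have h0 : (ht.finPlace b).ord (algebraMap K E (b - a)) = 0 :=
    ord_const _ (_root_.sub_ne_zero.2 hab.symm)
  have h := ord_add_eq_of_lt (ht.finPlace b) hc (ht.sub_const_ne_zero b)
    (by rw [h0, ht.ord_finPlace_sub]; exact Int.one_pos)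
  rw [h0] at h
  rw [← h]
  congr 1
  rw [map_sub]
  ring

theorem finPlace_injective : Function.Injective ht.finPlace := by
  intro a b hab
  by_contra hne
  have h1 := ht.ord_finPlace_sub a
  rw [hab, ht.ord_finPlace_sub_of_ne hne] at h1
  omega

section Rat

variable [RatPlaces K E]

theorem val_finPlace (a : K) : val (ht.finPlace a) t = a := by
  rw [val_eq_iff _ (FF.mem_of_ord_nonneg _ (ht.ord_finPlace_nonneg a))]
  right
  rw [ht.ord_finPlace_sub]
  exact Int.one_pos

theorem eq_finPlace_val {v : Place K E} (hv : 0 ≤ v.ord t) : v = ht.finPlace (val v t) := by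
  apply ht.eq_finPlace
  have h := (val_eq_iff v (FF.mem_of_ord_nonneg v hv) (val v t)).1 rfl
  exact h.resolve_left (ht.ne_algebraMap _)

theorem eq_infPlace_or_exists (v : Place K E) : v = ht.infPlace ∨ ∃ a : K, v = ht.finPlace a := by
  by_cases hv : v.ord t < 0
  · exact Or.inl (ht.eq_infPlace hv)
  · push Not at hv
    exact Or.inr ⟨_, ht.eq_finPlace_val hv⟩

end Rat

theorem ord_finPlace_zero : (ht.finPlace 0).ord t = 1 := by
  have := ht.ord_finPlace_sub 0
  rwa [map_zero, sub_zero] at this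

theorem ord_eq_zero_of_ne {v : Place K E} (h0 : v ≠ ht.finPlace 0) (hinf : v ≠ ht.infPlace) :
    v.ord t = 0 := by
  by_contra h
  rcases lt_or_gt_of_ne h with h | h
  · exact hinf (ht.eq_infPlace h)
  · apply h0
    apply ht.eq_finPlace
    rwa [map_zero, sub_zero]


/-! ### the reciprocity law for `t`, in the form of a tame symbol identity -/

section Recip

variable [RatPlaces K E] [HasPrincipalDivisors K E]

/-- the divisor of `h` away from the zero and the pole of `t` -/
def awayDiv (h : E) : Divisor K E :=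
  Finsupp.erase (ht.finPlace 0) (Finsupp.erase ht.infPlace (divOf h))

theorem awayDiv_apply_zero (h : E) : ht.awayDiv h (ht.finPlace 0) = 0 := Finsupp.erase_same

theorem awayDiv_apply_inf (h : E) : ht.awayDiv h ht.infPlace = 0 := by
  rw [awayDiv, Finsupp.erase_ne (ht.finPlace_ne_infPlace 0).symm, Finsupp.erase_same]

theorem awayDiv_apply_of_ne (h : E) {v : Place K E} (h0 : v ≠ ht.finPlace 0)
    (hinf : v ≠ ht.infPlace) : ht.awayDiv h v = v.ord h := by
  rw [awayDiv, Finsupp.erase_ne h0, Finsupp.erase_ne hinf, divOf_apply']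

theorem disj_awayDiv (h : E) : Disj t (ht.awayDiv h) := by
  intro v hv
  apply ht.ord_eq_zero_of_ne
  · rintro rfl
    exact hv (ht.awayDiv_apply_zero h)
  · rintro rfl
    exact hv (ht.awayDiv_apply_inf h)

theorem awayDiv_mul {h₁ h₂ : E} (h1 : h₁ ≠ 0) (h2 : h₂ ≠ 0) :
    ht.awayDiv (h₁ * h₂) = ht.awayDiv h₁ + ht.awayDiv h₂ := by
  rw [awayDiv, divOf_mul h1 h2, Finsupp.erase_add, Finsupp.erase_add]
  rfl

theorem awayDiv_inv (h : E) : ht.awayDiv h⁻¹ = -ht.awayDiv h := by
  rw [awayDiv, divOf_inv, Finsupp.erase_neg, Finsupp.erase_neg]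
  rfl

theorem awayDiv_eq_divOf {h : E} (h0 : (ht.finPlace 0).ord h = 0) (hinf : ht.infPlace.ord h = 0) :
    ht.awayDiv h = divOf h := by
  ext v
  by_cases hv0 : v = ht.finPlace 0
  · rw [hv0, awayDiv_apply_zero, divOf_apply', h0]
  by_cases hvi : v = ht.infPlace
  · rw [hvi, awayDiv_apply_inf, divOf_apply', hinf]
  rw [ht.awayDiv_apply_of_ne h hv0 hvi, divOf_apply']

/-- the sign of the tame symbols at `0` and `∞` -/
def sgn (h : E) : K := (-1) ^ ((ht.finPlace 0).ord h + ht.infPlace.ord h)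

/-- leading coefficient of `h` at `0` with respect to the uniformiser `t` -/
def lc0 (h : E) : K := val (ht.finPlace 0) (h * t ^ (-(ht.finPlace 0).ord h))

/-- leading coefficient of `h` at `∞` with respect to the uniformiser `t⁻¹` -/
def lcInf (h : E) : K := val ht.infPlace (h * t ^ (ht.infPlace.ord h))

theorem sgn_mul {h₁ h₂ : E} (h1 : h₁ ≠ 0) (h2 : h₂ ≠ 0) :
    ht.sgn (h₁ * h₂) = ht.sgn h₁ * ht.sgn h₂ := by
  rw [sgn, sgn, sgn, Place.ord_mul _ h1 h2, Place.ord_mul _ h1 h2,
    ← zpow_add₀ (neg_ne_zero.2 (one_ne_zero' K))]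
  congr 1
  ring

theorem sgn_inv (h : E) : ht.sgn h⁻¹ = (ht.sgn h)⁻¹ := by
  rw [sgn, sgn, Place.ord_inv, Place.ord_inv, ← zpow_neg]
  congr 1
  ring

theorem ord_zero_normalised {h : E} (hh : h ≠ 0) :
    (ht.finPlace 0).ord (h * t ^ (-(ht.finPlace 0).ord h)) = 0 := by
  rw [Place.ord_mul _ hh (zpow_ne_zero _ ht.gen_ne_zero), Place.ord_zpow, ht.ord_finPlace_zero]
  ring

theorem ord_inf_normalised {h : E} (hh : h ≠ 0) :
    ht.infPlace.ord (h * t ^ (ht.infPlace.ord h)) = 0 := by
  rw [Place.ord_mul _ hh (zpow_ne_zero _ ht.gen_ne_zero), Place.ord_zpow, ht.ord_infPlace]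
  ring

theorem lc0_ne_zero {h : E} (hh : h ≠ 0) : ht.lc0 h ≠ 0 :=
  val_ne_zero _ (mul_ne_zero hh (zpow_ne_zero _ ht.gen_ne_zero)) (ht.ord_zero_normalised hh)

theorem lcInf_ne_zero {h : E} (hh : h ≠ 0) : ht.lcInf h ≠ 0 :=
  val_ne_zero _ (mul_ne_zero hh (zpow_ne_zero _ ht.gen_ne_zero)) (ht.ord_inf_normalised hh)

theorem lc0_mul {h₁ h₂ : E} (h1 : h₁ ≠ 0) (h2 : h₂ ≠ 0) :
    ht.lc0 (h₁ * h₂) = ht.lc0 h₁ * ht.lc0 h₂ := by
  rw [lc0, lc0, lc0, ← val_mul _ (mem_of_ord_eq_zero _ (ht.ord_zero_normalised h1))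
    (mem_of_ord_eq_zero _ (ht.ord_zero_normalised h2)), Place.ord_mul _ h1 h2, neg_add,
    zpow_add₀ ht.gen_ne_zero]
  congr 1
  ring

theorem lcInf_mul {h₁ h₂ : E} (h1 : h₁ ≠ 0) (h2 : h₂ ≠ 0) :
    ht.lcInf (h₁ * h₂) = ht.lcInf h₁ * ht.lcInf h₂ := by
  rw [lcInf, lcInf, lcInf, ← val_mul _ (mem_of_ord_eq_zero _ (ht.ord_inf_normalised h1))
    (mem_of_ord_eq_zero _ (ht.ord_inf_normalised h2)), Place.ord_mul _ h1 h2,
    zpow_add₀ ht.gen_ne_zero]
  congr 1
  ring

theorem lc0_inv {h : E} (hh : h ≠ 0) : ht.lc0 h⁻¹ = (ht.lc0 h)⁻¹ := by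
  rw [lc0, lc0, ← val_inv _ (mul_ne_zero hh (zpow_ne_zero _ ht.gen_ne_zero))
    (ht.ord_zero_normalised hh), Place.ord_inv, mul_inv, ← zpow_neg]

theorem lcInf_inv {h : E} (hh : h ≠ 0) : ht.lcInf h⁻¹ = (ht.lcInf h)⁻¹ := by
  rw [lcInf, lcInf, ← val_inv _ (mul_ne_zero hh (zpow_ne_zero _ ht.gen_ne_zero))
    (ht.ord_inf_normalised hh), Place.ord_inv, mul_inv, ← zpow_neg]

/-- the tame reciprocity identity for the pair `(t, h)` -/
def Rec (h : E) : Prop :=
  h ≠ 0 ∧ evalDiv t (ht.awayDiv h) = ht.sgn h * ht.lc0 h / ht.lcInf h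

theorem Rec.mul {h₁ h₂ : E} (H1 : ht.Rec h₁) (H2 : ht.Rec h₂) : ht.Rec (h₁ * h₂) := by
  refine ⟨mul_ne_zero H1.1 H2.1, ?_⟩
  rw [ht.awayDiv_mul H1.1 H2.1, evalDiv_add_right ht.gen_ne_zero (ht.disj_awayDiv _)
    (ht.disj_awayDiv _), H1.2, H2.2, ht.sgn_mul H1.1 H2.1, ht.lc0_mul H1.1 H2.1,
    ht.lcInf_mul H1.1 H2.1]
  have := ht.lcInf_ne_zero H1.1
  have := ht.lcInf_ne_zero H2.1
  field_simp

theorem Rec.inv {h : E} (H : ht.Rec h) : ht.Rec h⁻¹ := by
  refine ⟨inv_ne_zero H.1, ?_⟩
  rw [ht.awayDiv_inv, evalDiv_neg_right, H.2, ht.sgn_inv, ht.lc0_inv H.1, ht.lcInf_inv H.1]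
  have := ht.lcInf_ne_zero H.1
  have := ht.lc0_ne_zero H.1
  field_simp

theorem rec_const {c : K} (hc : c ≠ 0) : ht.Rec (algebraMap K E c) := by
  have hc' : algebraMap K E c ≠ 0 := (map_ne_zero _).2 hc
  have hord : ∀ v : Place K E, v.ord (algebraMap K E c) = 0 := fun v => ord_const v hc
  refine ⟨hc', ?_⟩
  have hD : ht.awayDiv (algebraMap K E c) = 0 := by
    rw [ht.awayDiv_eq_divOf (hord _) (hord _)]
    ext v
    rw [divOf_apply', hord, Finsupp.zero_apply]
  rw [hD, evalDiv_zero_right, sgn, lc0, lcInf, hord, hord, add_zero, zpow_zero, neg_zero,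
    zpow_zero, mul_one, val_algebraMap, val_algebraMap, one_mul, div_self hc]

theorem rec_gen : ht.Rec t := by
  refine ⟨ht.gen_ne_zero, ?_⟩
  have hD : ht.awayDiv t = 0 := by
    ext v
    rw [Finsupp.zero_apply]
    by_cases hv0 : v = ht.finPlace 0
    · rw [hv0, awayDiv_apply_zero]
    by_cases hvi : v = ht.infPlace
    · rw [hvi, awayDiv_apply_inf]
    rw [ht.awayDiv_apply_of_ne t hv0 hvi, ht.ord_eq_zero_of_ne hv0 hvi]
  rw [hD, evalDiv_zero_right, sgn, lc0, lcInf, ht.ord_finPlace_zero, ht.ord_infPlace]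
  have h1 : t * t ^ (-1 : ℤ) = 1 := by
    rw [zpow_neg_one, mul_inv_cancel₀ ht.gen_ne_zero]
  rw [h1, val_one, val_one]
  norm_num

theorem rec_sub {a : K} (ha : a ≠ 0) : ht.Rec (t - algebraMap K E a) := by
  refine ⟨ht.sub_const_ne_zero a, ?_⟩
  have hne0 : ht.finPlace a ≠ ht.finPlace 0 := fun h => ha (ht.finPlace_injective h)
  have hD : ht.awayDiv (t - algebraMap K E a) = Finsupp.single (ht.finPlace a) 1 := by
    classical
    ext v
    by_cases hv0 : v = ht.finPlace 0
    · rw [hv0, awayDiv_apply_zero, Finsupp.single_eq_of_ne hne0.symm]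
    by_cases hvi : v = ht.infPlace
    · rw [hvi, awayDiv_apply_inf, Finsupp.single_eq_of_ne (ht.finPlace_ne_infPlace a).symm]
    rw [ht.awayDiv_apply_of_ne _ hv0 hvi]
    rcases ht.eq_infPlace_or_exists v with h | ⟨b, rfl⟩
    · exact absurd h hvi
    by_cases hab : a = b
    · subst hab
      rw [ht.ord_finPlace_sub, Finsupp.single_eq_same]
    · rw [ht.ord_finPlace_sub_of_ne hab, Finsupp.single_eq_of_ne]
      exact fun h => hab (ht.finPlace_injective h).symm
  have h0 : (ht.finPlace 0).ord (t - algebraMap K E a) = 0 := ht.ord_finPlace_sub_of_ne ha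
  rw [hD, evalDiv_single, zpow_one, ht.val_finPlace, sgn, lc0, lcInf, h0, ht.ord_infPlace_sub,
    neg_zero, zpow_zero, mul_one, zero_add, zpow_neg_one, inv_neg, inv_one, zpow_neg_one]
  have hmem : t ∈ (ht.finPlace 0).toValuationSubring :=
    FF.mem_of_ord_nonneg _ (ht.ord_finPlace_nonneg 0)
  rw [val_sub _ hmem ((ht.finPlace 0).algebraMap_mem' a), ht.val_finPlace, val_algebraMap]
  -- the value at infinity of `(t - a) / t` is `1`
  have hinf : val ht.infPlace ((t - algebraMap K E a) * t⁻¹) = 1 := by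
    have hord : ht.infPlace.ord t⁻¹ = 1 := by rw [Place.ord_inv, ht.ord_infPlace]; rfl
    have hmem' : t⁻¹ ∈ ht.infPlace.toValuationSubring := FF.mem_of_ord_nonneg _ (by omega)
    have hrw : (t - algebraMap K E a) * t⁻¹ = 1 - algebraMap K E a * t⁻¹ := by
      rw [sub_mul, mul_inv_cancel₀ ht.gen_ne_zero]
    rw [hrw, val_sub _ (one_mem _) (mul_mem (ht.infPlace.algebraMap_mem' a) hmem'), val_one,
      val_mul _ (ht.infPlace.algebraMap_mem' a) hmem', val_algebraMap,
      val_eq_zero_of_ord_pos _ (by omega : 0 < ht.infPlace.ord t⁻¹), mul_zero, sub_zero]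
  rw [hinf]
  ring

theorem rec_aeval {r : Polynomial K} (hr : r ≠ 0) : ht.Rec (Polynomial.aeval t r) := by
  have hsplit := (IsAlgClosed.splits r).eq_prod_roots
  have hlc : r.leadingCoeff ≠ 0 := Polynomial.leadingCoeff_ne_zero.2 hr
  rw [hsplit, map_mul, Polynomial.aeval_C, map_multiset_prod, Multiset.map_map]
  refine Rec.mul ht (ht.rec_const hlc) ?_
  refine Multiset.prod_induction (ht.Rec) _ (fun _ _ => Rec.mul ht) ?_ ?_
  · have := ht.rec_const (one_ne_zero' K)
    rwa [map_one] at this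
  · intro x hx
    obtain ⟨a, -, rfl⟩ := Multiset.mem_map.1 hx
    simp only [Function.comp_apply, map_sub, Polynomial.aeval_X, Polynomial.aeval_C]
    rcases eq_or_ne a 0 with rfl | ha
    · rw [map_zero, sub_zero]
      exact ht.rec_gen
    · exact ht.rec_sub ha

theorem rec_all {h : E} (hh : h ≠ 0) : ht.Rec h := by
  have hmem : h ∈ K⟮t⟯ := by rw [ht.top]; exact IntermediateField.mem_top
  obtain ⟨r, s, rfl⟩ := (IntermediateField.mem_adjoin_simple_iff K h).1 hmem
  have hr : r ≠ 0 := by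
    rintro rfl
    simp at hh
  have hs : s ≠ 0 := by
    rintro rfl
    simp at hh
  rw [div_eq_mul_inv]
  exact Rec.mul ht (ht.rec_aeval hr) (Rec.inv ht (ht.rec_aeval hs))

theorem divOf_gen : divOf (K := K) t =
    Finsupp.single (ht.finPlace 0) 1 - Finsupp.single ht.infPlace 1 := by
  classical
  ext v
  rw [divOf_apply', Finsupp.sub_apply]
  by_cases hv0 : v = ht.finPlace 0
  · rw [hv0, Finsupp.single_eq_same, Finsupp.single_eq_of_ne (ht.finPlace_ne_infPlace 0),
      ht.ord_finPlace_zero, sub_zero]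
  by_cases hvi : v = ht.infPlace
  · rw [hvi, Finsupp.single_eq_same, Finsupp.single_eq_of_ne (ht.finPlace_ne_infPlace 0).symm,
      ht.ord_infPlace, zero_sub]
  rw [Finsupp.single_eq_of_ne hv0, Finsupp.single_eq_of_ne hvi, ht.ord_eq_zero_of_ne hv0 hvi,
    sub_zero]

include ht in
/-- **Weil reciprocity on the projective line**, for the coordinate function `t`. -/
theorem reciprocity {h : E} (hh : h ≠ 0) (hd : ∀ v : Place K E, v.ord t ≠ 0 → v.ord h = 0) :
    evalDiv t (divOf (K := K) h) = evalDiv h (divOf (K := K) t) := by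
  have h0 : (ht.finPlace 0).ord h = 0 := hd _ (by rw [ht.ord_finPlace_zero]; exact one_ne_zero)
  have hinf : ht.infPlace.ord h = 0 := hd _ (by rw [ht.ord_infPlace]; omega)
  have H := (ht.rec_all hh).2
  rw [ht.awayDiv_eq_divOf h0 hinf, sgn, lc0, lcInf, h0, hinf, add_zero, zpow_zero, neg_zero,
    zpow_zero, mul_one, one_mul] at H
  rw [H, ht.divOf_gen, evalDiv_sub_right hh (Disj.single h0 1) (Disj.single hinf 1),
    evalDiv_single, evalDiv_single, zpow_one, zpow_one]

end Recip

end IsP1Gen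

end Fermat.Agent.S15lib.Weil
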